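/-
A basis of the affine ring over the coordinate line with pole orders distinct modulo the degree.
-/
import Fermat.Agent.MCurve.MW.Basic

set_option autoImplicit false
set_option linter.unusedSectionVars false

noncomputable section

namespace Fermat.Agent.MCurve.T27

open AlgebraicCurve RR MW Polynomial
open scoped Classical

variable {K F : Type*} [Field K] [Field F] [Algebra K F] [IsAlgClosed K]
  [∀ v : Place K F, v.FiniteResidue] [HasPrincipalDivisors K F] [Nonempty (Place K F)]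

/-- Functions whose pole orders at infinity are least in their class modulo the degree of `f`. -/
structure Frame (X : Setup K F) where
  /-- The functions. -/
  b : Fin (X.c + 1) → F
  /-- Their pole orders. -/
  ρ : Fin (X.c + 1) → ℕ
  ρ_mod : ∀ i, ρ i % (X.c + 1) = (i : ℕ)
  mem : ∀ i, b i ∈ X.L (ρ i)
  ne_zero : ∀ i, b i ≠ 0
  ord_eq : ∀ i, X.inf.ord (b i) = -(ρ i : ℤ)
  min : ∀ (m : ℕ) (a : F) (i : Fin (X.c + 1)), a ∈ X.L m → a ≠ 0 →
    X.inf.ord a = -(m : ℤ) → m % (X.c + 1) = (i : ℕ) → ρ i ≤ m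

theorem exists_frame (X : Setup K F) : Nonempty (Frame X) := by
  have hex : ∀ i : Fin (X.c + 1), ∃ m : ℕ, m % (X.c + 1) = (i : ℕ) ∧
      ∃ a ∈ X.L m, a ≠ 0 ∧ X.inf.ord a = -(m : ℤ) := fun i => by
    refine ⟨i + (X.c + 1) * (X.c + 1), by rw [Nat.add_mul_mod_self_left, Nat.mod_eq_of_lt i.2], ?_⟩
    obtain ⟨a, ha, ha0, hav⟩ := X.hR.exists_ord_eq
      (D := Finsupp.single X.inf (((i : ℕ) + (X.c + 1) * (X.c + 1) : ℕ) : ℤ))
      (by rw [Divisor.degree_single, deg_one]; push_cast; nlinarith) X.inf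
    exact ⟨a, ha, ha0, by rw [hav, Finsupp.single_eq_same]⟩
  choose a ha ha0 hav using fun i => (Nat.find_spec (hex i)).2
  exact ⟨⟨a, fun i => Nat.find (hex i), fun i => (Nat.find_spec (hex i)).1, ha, ha0, hav,
    fun m b i hb hb0 hbv hm => Nat.find_le ⟨hm, b, hb, hb0, hbv⟩⟩⟩

variable {X : Setup K F} (Fr : Frame X)

/-- A combination of the basis with polynomial coefficients. -/
def Frame.comb : (Fin (X.c + 1) → K[X]) →ₗ[K] F where
  toFun p := ∑ i, aeval X.f (p i) * Fr.b i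
  map_add' p q := by simp [add_mul, Finset.sum_add_distrib]
  map_smul' a p := by simp [Finset.smul_sum]

/-- The coefficients of a function (arbitrary outside the affine ring). -/
def Frame.coord (a : F) : Fin (X.c + 1) → K[X] := Function.invFun Fr.comb a

section Weight

variable {S : Type*} [CommRing S]

/-- The weight of a tuple of coefficients. -/
def Frame.wt (p : Fin (X.c + 1) → S[X]) : ℕ :=
  Finset.univ.sup fun i => if p i = 0 then 0 else Fr.ρ i + (X.c + 1) * (p i).natDegree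

/-- The residue class of the weight. -/
def Frame.top (p : Fin (X.c + 1) → S[X]) : Fin (X.c + 1) :=
  ⟨Fr.wt p % (X.c + 1), Nat.mod_lt _ (Nat.succ_pos _)⟩

/-- The leading coefficient. -/
def Frame.lead (p : Fin (X.c + 1) → S[X]) : S := (p (Fr.top p)).leadingCoeff

theorem Frame.le_wt {p : Fin (X.c + 1) → S[X]} {i : Fin (X.c + 1)} (h : p i ≠ 0) :
    Fr.ρ i + (X.c + 1) * (p i).natDegree ≤ Fr.wt p :=
  le_trans (by rw [if_neg h]) (Finset.le_sup (f := fun i =>
    if p i = 0 then 0 else Fr.ρ i + (X.c + 1) * (p i).natDegree) (Finset.mem_univ i))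

theorem Frame.eq_of_mod {i k : Fin (X.c + 1)} {j l : ℕ}
    (h : Fr.ρ i + (X.c + 1) * j = Fr.ρ k + (X.c + 1) * l) : i = k ∧ j = l := by
  have hm := congrArg (· % (X.c + 1)) h
  simp only [Nat.add_mul_mod_self_left, Fr.ρ_mod] at hm
  obtain rfl := Fin.ext hm
  exact ⟨rfl, Nat.eq_of_mul_eq_mul_left (Nat.succ_pos _) (Nat.add_left_cancel h)⟩

theorem Frame.top_spec {p : Fin (X.c + 1) → S[X]} (hp : p ≠ 0) :
    p (Fr.top p) ≠ 0 ∧
      Fr.wt p = Fr.ρ (Fr.top p) + (X.c + 1) * (p (Fr.top p)).natDegree := by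
  obtain ⟨i, hi⟩ : ∃ i, p i ≠ 0 := Function.ne_iff.mp hp
  obtain ⟨k, hk, hmax⟩ := Finset.exists_max_image (Finset.univ.filter fun i => p i ≠ 0)
    (fun i => Fr.ρ i + (X.c + 1) * (p i).natDegree) ⟨i, by simp [hi]⟩
  have hk' : p k ≠ 0 := (Finset.mem_filter.mp hk).2
  have hwt : Fr.wt p = Fr.ρ k + (X.c + 1) * (p k).natDegree := by
    refine le_antisymm (Finset.sup_le fun l _ => ?_) (Fr.le_wt hk')
    split_ifs with h
    · exact Nat.zero_le _
    · exact hmax l (by simp [h])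
  have htop : Fr.top p = k := Fin.ext (by
    show Fr.wt p % _ = _
    rw [hwt, Nat.add_mul_mod_self_left, Fr.ρ_mod])
  rw [htop]
  exact ⟨hk', hwt⟩

theorem Frame.lead_ne_zero {p : Fin (X.c + 1) → S[X]} (hp : p ≠ 0) : Fr.lead p ≠ 0 :=
  leadingCoeff_ne_zero.mpr (Fr.top_spec hp).1

theorem Frame.lt_wt {p : Fin (X.c + 1) → S[X]} {i : Fin (X.c + 1)} (h : p i ≠ 0)
    (hi : i ≠ Fr.top p) : Fr.ρ i + (X.c + 1) * (p i).natDegree < Fr.wt p := by
  refine lt_of_le_of_ne (Fr.le_wt h) fun e => hi ?_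
  have hp : p ≠ 0 := fun h0 => h (by rw [h0]; rfl)
  rw [(Fr.top_spec hp).2] at e
  exact (Fr.eq_of_mod e).1

theorem Frame.wt_single {i : Fin (X.c + 1)} {q : S[X]} (hq : q ≠ 0) :
    Fr.wt (Pi.single i q) = Fr.ρ i + (X.c + 1) * q.natDegree ∧
      Fr.lead (Pi.single i q) = q.leadingCoeff := by
  have hp : (Pi.single i q : Fin (X.c + 1) → S[X]) ≠ 0 := by simpa using hq
  obtain ⟨h1, h2⟩ := Fr.top_spec hp
  have e : Fr.top (Pi.single i q) = i := by
    by_contra h
    exact h1 (Pi.single_eq_of_ne (M := fun _ : Fin (X.c + 1) => S[X]) h q)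
  rw [Frame.lead]
  rw [e, Pi.single_eq_same] at h2 ⊢
  exact ⟨h2, rfl⟩

end Weight

theorem Frame.f_ne_zero : X.f ≠ 0 := fun h => X.f_fin.transcendental (h ▸ isAlgebraic_zero)

theorem Frame.ord_f_neg : X.inf.ord X.f < 0 := by rw [X.f_inf]; omega

theorem Frame.ord_term {i : Fin (X.c + 1)} {q : K[X]} (hq : q ≠ 0) :
    aeval X.f q * Fr.b i ≠ 0 ∧
      X.inf.ord (aeval X.f q * Fr.b i) = -((Fr.ρ i + (X.c + 1) * q.natDegree : ℕ) : ℤ) := by
  obtain ⟨h0, h⟩ := ord_aeval_pole (Frame.ord_f_neg (X := X)) hq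
  refine ⟨mul_ne_zero h0 (Fr.ne_zero i), ?_⟩
  rw [X.inf.ord_mul h0 (Fr.ne_zero i), h, X.f_inf, Fr.ord_eq]
  push_cast
  ring

theorem Frame.mono_eq (i : Fin (X.c + 1)) (j : ℕ) :
    X.f ^ j * Fr.b i = aeval X.f (Polynomial.X ^ j : K[X]) * Fr.b i := by rw [map_pow, aeval_X]

theorem Frame.ord_mono (i : Fin (X.c + 1)) (j : ℕ) : X.f ^ j * Fr.b i ≠ 0 ∧
    X.inf.ord (X.f ^ j * Fr.b i) = -((Fr.ρ i + (X.c + 1) * j : ℕ) : ℤ) := by
  have h := Fr.ord_term (i := i) (pow_ne_zero j (Polynomial.X_ne_zero (R := K)))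
  rwa [natDegree_X_pow, ← Fr.mono_eq] at h

theorem Frame.comb_single (i : Fin (X.c + 1)) (q : K[X]) :
    Fr.comb (Pi.single i q) = aeval X.f q * Fr.b i := by
  show ∑ j, aeval X.f ((Pi.single i q : Fin (X.c + 1) → K[X]) j) * Fr.b j = _
  rw [Finset.sum_eq_single i (fun j _ hj => by rw [Pi.single_eq_of_ne hj, map_zero, zero_mul])
    (by simp), Pi.single_eq_same]

/-- The order at infinity of a combination is minus its weight. -/
theorem Frame.ord_comb {p : Fin (X.c + 1) → K[X]} (hp : p ≠ 0) :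
    Fr.comb p ≠ 0 ∧ X.inf.ord (Fr.comb p) = -(Fr.wt p : ℤ) := by
  obtain ⟨h1, h2⟩ := Fr.top_spec hp
  obtain ⟨ht0, hto⟩ := Fr.ord_term (i := Fr.top p) h1
  rw [← h2] at hto
  have e : Fr.comb p = aeval X.f (p (Fr.top p)) * Fr.b (Fr.top p) +
      ∑ i ∈ Finset.univ.erase (Fr.top p), aeval X.f (p i) * Fr.b i :=
    (Finset.add_sum_erase _ (fun i => aeval X.f (p i) * Fr.b i) (Finset.mem_univ _)).symm
  have hlt : ∀ i ∈ Finset.univ.erase (Fr.top p), aeval X.f (p i) * Fr.b i = 0 ∨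
      -(Fr.wt p : ℤ) < X.inf.ord (aeval X.f (p i) * Fr.b i) := fun i hi => by
    rcases eq_or_ne (p i) 0 with h | h
    · exact Or.inl (by rw [h, map_zero, zero_mul])
    · refine Or.inr ?_
      rw [(Fr.ord_term h).2]
      have := Fr.lt_wt h (Finset.ne_of_mem_erase hi)
      omega
  rcases eq_or_ne (∑ i ∈ Finset.univ.erase (Fr.top p), aeval X.f (p i) * Fr.b i) 0 with h0 | h0
  · rw [e, h0, add_zero]; exact ⟨ht0, hto⟩
  have hgt := (lt_ord_sum _ _ X.inf hlt).resolve_left h0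
  have ho := MCurve.ord_add_eq X.inf ht0 h0 (by rw [hto]; exact hgt)
  rw [← e, hto] at ho
  refine ⟨fun h => ?_, ho⟩
  rw [e, add_eq_zero_iff_eq_neg] at h
  rw [h, MCurve.ord_neg] at hto
  omega

theorem Frame.comb_eq_zero {p : Fin (X.c + 1) → K[X]} (h : Fr.comb p = 0) : p = 0 := by
  by_contra hp
  exact (Fr.ord_comb hp).1 h

theorem Frame.comb_injective : Function.Injective Fr.comb := fun _ _ h =>
  sub_eq_zero.mp (Fr.comb_eq_zero (by rw [map_sub, h, sub_self]))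

theorem Frame.coord_comb (p : Fin (X.c + 1) → K[X]) : Fr.coord (Fr.comb p) = p :=
  Function.leftInverse_invFun Fr.comb_injective p

theorem Frame.single_mem_L {i : Fin (X.c + 1)} {q : K[X]} {n : ℕ}
    (h : q = 0 ∨ Fr.ρ i + (X.c + 1) * q.natDegree ≤ n) : aeval X.f q * Fr.b i ∈ X.L n := by
  rcases eq_or_ne q 0 with rfl | hq
  · simp
  have hn := h.resolve_left hq
  rw [aeval_eq_sum_range, Finset.sum_mul]
  refine sum_mem fun l hl => ?_
  rw [smul_mul_assoc]
  refine Submodule.smul_mem _ _ (Setup.L_mono (le_trans ?_ hn)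
    (Setup.mul_mem_L (X.f_pow_mem l le_rfl) (Fr.mem i)))
  have := Nat.mul_le_mul_left (X.c + 1) (Nat.lt_succ_iff.mp (Finset.mem_range.mp hl))
  rw [mul_comm l]
  omega

theorem Frame.comb_mem_L {p : Fin (X.c + 1) → K[X]} {n : ℕ} (h : Fr.wt p ≤ n) :
    Fr.comb p ∈ X.L n :=
  show ∑ i, aeval X.f (p i) * Fr.b i ∈ X.L n from sum_mem fun i _ => Fr.single_mem_L <| (eq_or_ne (p i) 0).imp id fun hi => (Fr.le_wt hi).trans h

theorem Frame.comb_mem_iff {p : Fin (X.c + 1) → K[X]} {n : ℕ} :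
    Fr.comb p ∈ X.L n ↔ Fr.wt p ≤ n := by
  refine ⟨fun h => ?_, Fr.comb_mem_L⟩
  rcases eq_or_ne p 0 with rfl | hp
  · simp [Frame.wt]
  have := ((Setup.mem_L.mp h).resolve_left (Fr.ord_comb hp).1).2
  rw [(Fr.ord_comb hp).2] at this
  omega

/-- Every function of the affine ring is a combination. -/
theorem Frame.exists_comb {n : ℕ} {a : F} (ha : a ∈ X.L n) :
    ∃ p, Fr.comb p = a ∧ Fr.wt p ≤ n := by
  suffices h : ∀ (n : ℕ) (a : F), a ∈ X.L n → ∃ p, Fr.comb p = a from by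
    obtain ⟨p, rfl⟩ := h n a ha
    exact ⟨p, rfl, Fr.comb_mem_iff.mp ha⟩
  intro n
  induction n using Nat.strong_induction_on with
  | _ n ih =>
    intro a ha
    rcases eq_or_ne a 0 with rfl | ha0
    · exact ⟨0, map_zero _⟩
    obtain ⟨m, hm⟩ : ∃ m : ℕ, X.inf.ord a = -(m : ℤ) := by
      refine ⟨(-X.inf.ord a).toNat, ?_⟩
      by_contra h
      have hpos : 0 < X.inf.ord a := by omega
      obtain ⟨k, hk⟩ := exists_const_of_mem_zero (f := a) (mem_space_iff.mpr (Or.inr fun v => by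
        rcases eq_or_ne v X.inf with rfl | hv
        · simpa using hpos.le
        · simpa using ((Setup.mem_L.mp ha).resolve_left ha0).1 v hv))
      rw [← hk, MCurve.ord_algebraMap] at hpos
      omega
    have hmn : m ≤ n := by
      have := ((Setup.mem_L.mp ha).resolve_left ha0).2
      omega
    have haL : a ∈ X.L m := Setup.mem_L.mpr (Or.inr ⟨((Setup.mem_L.mp ha).resolve_left ha0).1,
      hm.ge⟩)
    set i : Fin (X.c + 1) := ⟨m % (X.c + 1), Nat.mod_lt _ (Nat.succ_pos _)⟩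
    have hle := Fr.min m a i haL ha0 hm rfl
    have hdiv : X.c + 1 ∣ m - Fr.ρ i :=
      (Nat.modEq_iff_dvd' hle).mp (by show _ % _ = _ % _; rw [Fr.ρ_mod])
    obtain ⟨j, hj⟩ := hdiv
    obtain ⟨hb0, hbo⟩ := Fr.ord_mono i j
    rw [show Fr.ρ i + (X.c + 1) * j = m by omega] at hbo
    haveI : Module.Finite K X.inf.ResidueField := Place.FiniteResidue.finite
    obtain ⟨l, hl⟩ := exists_value X.inf (f := a / (X.f ^ j * Fr.b i))
      ((mem_iff_ord_nonneg _ (div_ne_zero ha0 hb0)).mpr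
        (by rw [div_eq_mul_inv, X.inf.ord_mul ha0 (inv_ne_zero hb0), X.inf.ord_inv, hm, hbo]; omega))
    set r := a - l • (X.f ^ j * Fr.b i) with hr
    suffices hrc : ∃ p, Fr.comb p = r by
      obtain ⟨p, hp⟩ := hrc
      exact ⟨p + l • (Pi.single i (Polynomial.X ^ j) : Fin (X.c + 1) → K[X]), by
        rw [map_add, hp, map_smul, Fr.comb_single, ← Fr.mono_eq, hr, sub_add_cancel]⟩
    rcases eq_or_ne r 0 with h0 | h0
    · exact ⟨0, by rw [h0, map_zero]⟩
    have hrL : r ∈ X.L m := sub_mem haL (Submodule.smul_mem _ _ (by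
      rw [Fr.mono_eq]; exact Fr.single_mem_L (Or.inr (by rw [natDegree_X_pow]; omega))))
    have hro : -(m : ℤ) < X.inf.ord r := by
      have e : r = (a / (X.f ^ j * Fr.b i) - algebraMap K F l) *
          (X.f ^ j * Fr.b i) := by
        rw [hr, Algebra.smul_def, sub_mul, div_mul_cancel₀ _ hb0]
      rcases hl with hl | hl
      · exact absurd (by rw [e, hl, sub_self, zero_mul]) h0
      · rw [e, X.inf.ord_mul (fun h => h0 (by rw [e, h, zero_mul])) hb0, hbo]
        omega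
    rcases Nat.eq_zero_or_pos m with rfl | hpos
    · exfalso
      obtain ⟨k, hk⟩ := exists_const_of_mem_zero (f := r) (by
        rwa [Setup.L, Nat.cast_zero, Finsupp.single_zero] at hrL)
      rw [← hk, MCurve.ord_algebraMap] at hro
      omega
    · exact ih (m - 1) (by omega) r (Setup.mem_L.mpr (Or.inr
        ⟨((Setup.mem_L.mp hrL).resolve_left h0).1, by omega⟩))

theorem Frame.comb_coord {n : ℕ} {a : F} (ha : a ∈ X.L n) : Fr.comb (Fr.coord a) = a := by
  obtain ⟨p, rfl, -⟩ := Fr.exists_comb ha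
  rw [Fr.coord_comb]

/-- The coefficients of the products of the basis. -/
def Frame.m (i j : Fin (X.c + 1)) : Fin (X.c + 1) → K[X] := Fr.coord (Fr.b i * Fr.b j)

theorem Frame.comb_m (i j : Fin (X.c + 1)) : Fr.comb (Fr.m i j) = Fr.b i * Fr.b j :=
  Fr.comb_coord (Setup.mul_mem_L (Fr.mem i) (Fr.mem j))

/-- The product of tuples of coefficients by a multiplication table. -/
def tableMul {ι S : Type*} [Fintype ι] [CommRing S] (m : ι → ι → ι → S[X]) (p q : ι → S[X]) :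
    ι → S[X] :=
  fun k => ∑ i, ∑ j, p i * q j * m i j k

theorem map_tableMul {ι S T : Type*} [Fintype ι] [CommRing S] [CommRing T] (φ : S[X] →+* T[X])
    (m : ι → ι → ι → S[X]) (p q : ι → S[X]) (k : ι) :
    φ (tableMul m p q k) = tableMul (fun i j l => φ (m i j l)) (fun i => φ (p i)) (fun i => φ (q i)) k := by
  simp [tableMul, map_sum]

theorem Frame.comb_mul (p q : Fin (X.c + 1) → K[X]) :
    Fr.comb (tableMul Fr.m p q) = Fr.comb p * Fr.comb q := by
  show ∑ k, aeval X.f (tableMul Fr.m p q k) * Fr.b k =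
    (∑ i, aeval X.f (p i) * Fr.b i) * ∑ j, aeval X.f (q j) * Fr.b j
  rw [Finset.sum_mul_sum]
  simp only [tableMul, map_sum, map_mul, Finset.sum_mul]
  rw [Finset.sum_comm]
  refine Finset.sum_congr rfl fun i _ => ?_
  rw [Finset.sum_comm]
  refine Finset.sum_congr rfl fun j _ => ?_
  rw [mul_mul_mul_comm, ← Fr.comb_m i j]
  show _ = _ * ∑ k, aeval X.f (Fr.m i j k) * Fr.b k
  rw [Finset.mul_sum]
  exact Finset.sum_congr rfl fun k _ => by ring

/-- The leading coefficient of the product of two basis functions. -/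
def Frame.t (i j : Fin (X.c + 1)) : K := Fr.lead (Fr.m i j)

theorem Frame.lead_unique {r : Fin (X.c + 1) → K[X]} {i : Fin (X.c + 1)} {j : ℕ} {l : K}
    (hl : l ≠ 0) (h : Fr.comb r - l • (X.f ^ j * Fr.b i) = 0 ∨
      -((Fr.ρ i + (X.c + 1) * j : ℕ) : ℤ) <
        X.inf.ord (Fr.comb r - l • (X.f ^ j * Fr.b i))) :
    r ≠ 0 ∧ Fr.wt r = Fr.ρ i + (X.c + 1) * j ∧ Fr.lead r = l := by
  set r0 := r - Pi.single i (C l * Polynomial.X ^ j) with hr0
  have e : Fr.comb r0 = Fr.comb r - l • (X.f ^ j * Fr.b i) := by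
    rw [hr0, map_sub, Fr.comb_single, map_mul, aeval_C, mul_assoc, ← Algebra.smul_def, ← Fr.mono_eq]
  have hsmall : ∀ k, r0 k ≠ 0 →
      Fr.ρ k + (X.c + 1) * (r0 k).natDegree < Fr.ρ i + (X.c + 1) * j := fun k hk => by
    have hne : r0 ≠ 0 := fun h0 => hk (by rw [h0]; rfl)
    rw [← e] at h
    have h' := h.resolve_left (Fr.ord_comb hne).1
    rw [(Fr.ord_comb hne).2] at h'
    have := Fr.le_wt hk
    omega
  have hi : (r0 i).coeff j = 0 := by
    by_contra hc
    have := hsmall i (fun h0 => hc (by rw [h0, coeff_zero]))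
    have := Nat.mul_le_mul_left (X.c + 1) (le_natDegree_of_ne_zero hc)
    omega
  have hri : r i = r0 i + C l * Polynomial.X ^ j := by
    rw [hr0, Pi.sub_apply, Pi.single_eq_same, sub_add_cancel]
  have hco : (r i).coeff j = l := by rw [hri, coeff_add, hi, coeff_C_mul_X_pow]; simp
  have hne : r i ≠ 0 := fun h0 => hl (by rw [← hco, h0, coeff_zero])
  have hr : r ≠ 0 := fun h0 => hne (by rw [h0]; rfl)
  have hj : (r i).natDegree = j := by
    refine le_antisymm ?_ (le_natDegree_of_ne_zero (hco ▸ hl))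
    rw [hri]
    refine natDegree_add_le_of_le ?_ (natDegree_C_mul_X_pow_le l j) |>.trans (max_self j).le
    rcases eq_or_ne (r0 i) 0 with h0 | h0
    · rw [h0, natDegree_zero]; exact Nat.zero_le _
    · have := hsmall i h0
      exact (Nat.lt_of_mul_lt_mul_left (a := X.c + 1) (by omega)).le
  have htop : Fr.top r = i := by
    by_contra hk
    have h1 := (Fr.top_spec hr).1
    have h2 := Fr.lt_wt hne (Ne.symm hk)
    rw [(Fr.top_spec hr).2] at h2
    have e' : r (Fr.top r) = r0 (Fr.top r) := by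
      rw [hr0, Pi.sub_apply, Pi.single_eq_of_ne hk, sub_zero]
    rw [e'] at h1 h2
    have := hsmall _ h1
    rw [hj] at h2
    omega
  refine ⟨hr, ?_, ?_⟩
  · rw [(Fr.top_spec hr).2, htop, hj]
  · rw [Frame.lead, htop, leadingCoeff, hj, hco]

theorem Frame.sub_lead {r : Fin (X.c + 1) → K[X]} (hr : r ≠ 0) :
    ∃ (i : Fin (X.c + 1)) (j : ℕ), Fr.ρ i + (X.c + 1) * j = Fr.wt r ∧ i = Fr.top r ∧
      (Fr.comb r - Fr.lead r • (X.f ^ j * Fr.b i) = 0 ∨ -(Fr.wt r : ℤ) <
        X.inf.ord (Fr.comb r - Fr.lead r • (X.f ^ j * Fr.b i))) := by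
  obtain ⟨h1, h2⟩ := Fr.top_spec hr
  refine ⟨Fr.top r, (r (Fr.top r)).natDegree, h2.symm, rfl, ?_⟩
  set r0 := r - Pi.single (Fr.top r) (C (Fr.lead r) * Polynomial.X ^ (r (Fr.top r)).natDegree)
    with hr0
  have e : Fr.comb r0 = Fr.comb r - Fr.lead r •
      (X.f ^ (r (Fr.top r)).natDegree * Fr.b (Fr.top r)) := by
    rw [hr0, map_sub, Fr.comb_single, map_mul, aeval_C, mul_assoc, ← Algebra.smul_def, ← Fr.mono_eq]
  rw [← e]
  rcases eq_or_ne r0 0 with h0 | h0
  · exact Or.inl (by rw [h0, map_zero])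
  refine Or.inr ?_
  rw [(Fr.ord_comb h0).2]
  obtain ⟨k1, k2⟩ := Fr.top_spec h0
  by_cases hk : Fr.top r0 = Fr.top r
  · have e' : r0 (Fr.top r) = (r (Fr.top r)).eraseLead := by
      rw [hr0, Pi.sub_apply, Pi.single_eq_same, Frame.lead, self_sub_C_mul_X_pow]
    rw [hk, e'] at k1 k2
    have := eraseLead_natDegree_lt_or_eraseLead_eq_zero (r (Fr.top r))
    have h3 := this.resolve_right k1
    have := Nat.mul_lt_mul_of_pos_left h3 (show 0 < X.c + 1 from Nat.succ_pos X.c)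
    omega
  · have e' : r0 (Fr.top r0) = r (Fr.top r0) := by
      rw [hr0, Pi.sub_apply, Pi.single_eq_of_ne hk, sub_zero]
    rw [e'] at k1 k2
    have := Fr.lt_wt k1 hk
    omega

/-- Weights add and leading coefficients multiply up to the table. -/
theorem Frame.lead_tableMul {p q : Fin (X.c + 1) → K[X]} (hp : p ≠ 0) (hq : q ≠ 0) :
    tableMul Fr.m p q ≠ 0 ∧ Fr.wt (tableMul Fr.m p q) = Fr.wt p + Fr.wt q ∧
      Fr.lead (tableMul Fr.m p q) = Fr.lead p * Fr.lead q * Fr.t (Fr.top p) (Fr.top q) := by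
  obtain ⟨i, j, hij, hi, h1⟩ := Fr.sub_lead hp
  obtain ⟨i', j', hij', hi', h2⟩ := Fr.sub_lead hq
  have hm0 : Fr.m i i' ≠ 0 := fun h => mul_ne_zero (Fr.ne_zero i) (Fr.ne_zero i')
    (by rw [← Fr.comb_m, h, map_zero])
  obtain ⟨k, l, hkl, hk, h3⟩ := Fr.sub_lead hm0
  have hwm : Fr.wt (Fr.m i i') = Fr.ρ i + Fr.ρ i' := by
    have := (Fr.ord_comb hm0).2
    rw [Fr.comb_m, X.inf.ord_mul (Fr.ne_zero i) (Fr.ne_zero i'), Fr.ord_eq, Fr.ord_eq] at this
    omega
  rw [hwm] at hkl h3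
  have hn : Fr.ρ k + (X.c + 1) * (j + j' + l) = Fr.wt p + Fr.wt q := by
    rw [Nat.mul_add, Nat.mul_add]; omega
  rw [show Fr.t (Fr.top p) (Fr.top q) = Fr.lead (Fr.m i i') by rw [← hi, ← hi']; rfl]
  rw [← hn]
  refine Fr.lead_unique (mul_ne_zero (mul_ne_zero (Fr.lead_ne_zero hp) (Fr.lead_ne_zero hq))
    (Fr.lead_ne_zero hm0)) ?_
  rw [Fr.comb_mul]
  rw [Fr.comb_m] at h3
  -- the three errors
  set A := X.f ^ j * Fr.b i with hA
  set B := X.f ^ j' * Fr.b i' with hB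
  have e : Fr.comb p * Fr.comb q - (Fr.lead p * Fr.lead q * Fr.lead (Fr.m i i')) •
      (X.f ^ (j + j' + l) * Fr.b k) =
      (Fr.comb p - Fr.lead p • A) * Fr.comb q + (Fr.lead p • A) * (Fr.comb q - Fr.lead q • B) +
        (algebraMap K F (Fr.lead p * Fr.lead q) * X.f ^ (j + j')) *
          (Fr.b i * Fr.b i' - Fr.lead (Fr.m i i') • (X.f ^ l * Fr.b k)) := by
    simp only [hA, hB, Algebra.smul_def, map_mul, pow_add]
    ring
  have hterm : ∀ {u v : F} {α β : ℕ}, (u = 0 ∨ -(α : ℤ) < X.inf.ord u) →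
      (v = 0 ∨ -(β : ℤ) ≤ X.inf.ord v) → u * v = 0 ∨ -((α + β : ℕ) : ℤ) < X.inf.ord (u * v) := by
    intro u v α β hu hv
    rcases eq_or_ne u 0 with rfl | hu0
    · simp
    rcases eq_or_ne v 0 with rfl | hv0
    · simp
    have := hu.resolve_left hu0
    have := hv.resolve_left hv0
    exact Or.inr (by rw [X.inf.ord_mul hu0 hv0]; push_cast; omega)
  have hAo : Fr.lead p • A = 0 ∨ -(Fr.wt p : ℤ) ≤ X.inf.ord (Fr.lead p • A) := by
    refine Or.inr ?_
    rw [ord_smul_const _ (Fr.lead_ne_zero hp), hA, (Fr.ord_mono i j).2, hij]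
  have hco : algebraMap K F (Fr.lead p * Fr.lead q) * X.f ^ (j + j') = 0 ∨
      -(((X.c + 1) * (j + j') : ℕ) : ℤ) ≤ X.inf.ord
        (algebraMap K F (Fr.lead p * Fr.lead q) * X.f ^ (j + j')) := by
    refine Or.inr ?_
    rw [← Algebra.smul_def, ord_smul_const _ (mul_ne_zero (Fr.lead_ne_zero hp) (Fr.lead_ne_zero hq)),
      MCurve.ord_pow, X.f_inf]
    push_cast
    linarith
  have t1 := hterm h1 (Or.inr ((Fr.ord_comb hq).2.ge))
  have t2 := hterm h2 hAo
  have t3 := hterm h3 hco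
  rw [mul_comm (Fr.comb q - Fr.lead q • B), add_comm (Fr.wt q)] at t2
  rw [mul_comm (Fr.b i * Fr.b i' - _),
    show Fr.ρ i + Fr.ρ i' + (X.c + 1) * (j + j') = Fr.wt p + Fr.wt q by rw [Nat.mul_add]; omega]
    at t3
  rw [e, hn]
  have hsum := lt_ord_sum (Finset.univ : Finset (Fin 3))
    ![(Fr.comb p - Fr.lead p • A) * Fr.comb q, (Fr.lead p • A) * (Fr.comb q - Fr.lead q • B),
      (algebraMap K F (Fr.lead p * Fr.lead q) * X.f ^ (j + j')) *
        (Fr.b i * Fr.b i' - Fr.lead (Fr.m i i') • (X.f ^ l * Fr.b k))]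
    X.inf (b := -((Fr.wt p + Fr.wt q : ℕ) : ℤ)) (fun s _ => by
      fin_cases s
      · simpa using t1
      · simpa using t2
      · simpa using t3)
  simpa [Fin.sum_univ_three] using hsum

end Fermat.Agent.MCurve.T27
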