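/-
A second coordinate over the affine line, in characteristic zero.
-/
import Fermat.Agent.MCurve.T27.Defs
import Fermat.Agent.MCurve.T27.Reduction.Frame
import Mathlib.RingTheory.Polynomial.Resultant.Basic
import Mathlib.FieldTheory.PrimitiveElement
import Mathlib.LinearAlgebra.Matrix.ToLinearEquiv
import Mathlib.LinearAlgebra.Matrix.Charpoly.Coeff

set_option autoImplicit false
set_option linter.unusedSectionVars false

noncomputable section

namespace Fermat.Agent.MCurve.T27

open AlgebraicCurve RR MW Polynomial IntermediateField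
open scoped Classical

variable {K F : Type*} [Field K] [Field F] [Algebra K F] [IsAlgClosed K]
  [∀ v : Place K F, v.FiniteResidue] [HasPrincipalDivisors K F] [Nonempty (Place K F)]

theorem ev2_C {S A : Type*} [CommRing S] [CommRing A] [Algebra S A] (a b : A) (p : S[X]) :
    ev2 a b (C p) = aeval a p := eval₂_C _ _

theorem ev2_X {S A : Type*} [CommRing S] [CommRing A] [Algebra S A] (a b : A) :
    ev2 a b (Polynomial.X : S[X][X]) = b := eval₂_X _ _

theorem ev2_mul {S A : Type*} [CommRing S] [CommRing A] [Algebra S A] (a b : A) (H H' : S[X][X]) :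
    ev2 a b (H * H') = ev2 a b H * ev2 a b H' := eval₂_mul _ _

theorem ev2_sum {ι S A : Type*} [CommRing S] [CommRing A] [Algebra S A] (a b : A) (s : Finset ι)
    (H : ι → S[X][X]) : ev2 a b (∑ i ∈ s, H i) = ∑ i ∈ s, ev2 a b (H i) :=
  eval₂_finsetSum _ _ _ _

theorem ev2_pow {S A : Type*} [CommRing S] [CommRing A] [Algebra S A] (a b : A) (H : S[X][X])
    (n : ℕ) : ev2 a b (H ^ n) = ev2 a b H ^ n := eval₂_pow _ _ _

/-- A common value of a monic polynomial and its derivative, read off a resultant. -/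
theorem exists_bezout_derivative [CharZero K] {P : K[X][X]} (hP : P.Monic)
    (hd : 0 < P.natDegree) :
    ∃ (R : K[X]) (A B : K[X][X]), A * P + B * derivative P = C R ∧
      ∀ {L : Type _} [Field L] [CharZero L] (φ : K[X] →+* L), (P.map φ).Separable → φ R ≠ 0 := by
  obtain ⟨A, B, -, -, e⟩ := exists_mul_add_mul_eq_C_resultant (m := P.natDegree)
    (n := P.natDegree - 1) P (derivative P) le_rfl (natDegree_derivative_le P) (Or.inl hd.ne')
  refine ⟨_, A, B, by rw [← e]; ring, fun {L} _ _ φ hsep => ?_⟩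
  rw [← resultant_map_map, ← derivative_map]
  have h1 : (P.map φ).natDegree = P.natDegree := hP.natDegree_map φ
  have h2 : (derivative (P.map φ)).natDegree = P.natDegree - 1 := by
    rw [← h1]
    exact natDegree_eq_of_degree_eq_some
      (degree_derivative_eq _ (by rw [h1]; exact hd))
  have := resultant_ne_zero _ _ hsep
  rwa [h1, h2] at this

theorem exists_coordinate_of_frame [CharZero K] {X : Setup K F} (Fr : Frame X) :
    Nonempty (Coordinate X) := by
  haveI := X.f_fin.finite
  haveI : CharZero K⟮X.f⟯ :=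
    charZero_of_injective_algebraMap (algebraMap K K⟮X.f⟯).injective
  have hdiv : poleDiv K X.f = Finsupp.single X.inf ((X.c + 1 : ℕ) : ℤ) := by
    refine Finsupp.ext fun v => ?_
    rw [poleDiv_apply, Finsupp.single_apply]
    split_ifs with h
    · rw [← h, X.f_inf]; push_cast; omega
    · have := X.f_pole v (Ne.symm h); omega
  have hn : Module.finrank K⟮X.f⟯ F = X.c + 1 := by
    obtain ⟨P, hP, hdP⟩ := exists_pole_divisor X.f_fin
    have : P = poleDiv K X.f := Finsupp.ext fun v => by rw [hP, poleDiv_apply]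
    rw [this, hdiv, Divisor.degree_single, deg_one, Nat.cast_one, mul_one] at hdP
    exact_mod_cast hdP.symm
  obtain ⟨α, hα0, hα⟩ : ∃ α : F, α ≠ 0 ∧ (K⟮X.f⟯)⟮α⟯ = ⊤ := by
    obtain ⟨α, hα⟩ := Field.exists_primitive_element K⟮X.f⟯ F
    rcases eq_or_ne α 0 with rfl | h
    · exact ⟨1, one_ne_zero, by rw [← hα]; simp⟩
    · exact ⟨α, h, hα⟩
  obtain ⟨p, hp, m, hm⟩ := exists_clear_poles X.f_fin.transcendental (K := K) hα0
  set w := aeval X.f p * α with hw
  have hwL : w ∈ X.L (m * (X.c + 1)) := by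
    rw [hdiv, Finsupp.smul_single] at hm
    convert hm using 3
    simp
  have hψ0 : ∀ q : K[X], q ≠ 0 → aeval (AdjoinSimple.gen K X.f) q ≠ 0 := fun q hq h =>
    hq (transcendental_iff.mp X.f_fin.transcendental q (by
      have h' := congrArg (algebraMap K⟮X.f⟯ F) h
      rwa [← aeval_algebraMap_apply, map_zero] at h'))
  set ψ : K[X] →+* K⟮X.f⟯ := (aeval (AdjoinSimple.gen K X.f) : K[X] →ₐ[K] K⟮X.f⟯).toRingHom with hψ
  have hψF : ∀ q : K[X], algebraMap K⟮X.f⟯ F (ψ q) = aeval X.f q := fun q =>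
    (aeval_algebraMap_apply F (AdjoinSimple.gen K X.f) q).symm
  have hwgen : (K⟮X.f⟯)⟮w⟯ = ⊤ := by
    refine top_unique (hα ▸ adjoin_simple_le_iff.mpr ?_)
    have e : α = algebraMap K⟮X.f⟯ F (ψ p)⁻¹ * w := by
      rw [map_inv₀, hψF, hw, inv_mul_cancel_left₀]
      intro h
      exact hp (transcendental_iff.mp X.f_fin.transcendental p h)
    rw [e]
    exact mul_mem (IntermediateField.algebraMap_mem _ _) (mem_adjoin_simple_self _ _)
  have hint : IsIntegral K⟮X.f⟯ w := IsIntegral.of_finite _ _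
  have hdeg : (minpoly K⟮X.f⟯ w).natDegree = X.c + 1 := by
    rw [← adjoin.finrank hint, hwgen, finrank_top', hn]
  -- the characteristic polynomial of multiplication
  set M : Matrix (Fin (X.c + 1)) (Fin (X.c + 1)) K[X] := fun i k => Fr.coord (w * Fr.b i) k
  set P := M.charpoly with hPdef
  have hPm : P.Monic := Matrix.charpoly_monic M
  have hPd : P.natDegree = X.c + 1 := by
    rw [hPdef, Matrix.charpoly_natDegree_eq_dim, Fintype.card_fin]
  have hroot : ev2 X.f w P = 0 := by
    show P.eval₂ (aeval X.f : K[X] →ₐ[K] F).toRingHom w = 0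
    rw [eval₂_eq_eval_map, hPdef, ← Matrix.charpoly_map, Matrix.eval_charpoly,
      ← Matrix.exists_mulVec_eq_zero_iff]
    refine ⟨Fr.b, fun h => Fr.ne_zero 0 (congrFun h 0), funext fun i => ?_⟩
    have hc : ∑ k, aeval X.f (M i k) * Fr.b k = w * Fr.b i :=
      Fr.comb_coord (Setup.mul_mem_L hwL (Fr.mem i))
    rw [Matrix.sub_mulVec, Pi.sub_apply, Matrix.scalar_apply, Matrix.mulVec_diagonal]
    simp only [Matrix.mulVec, dotProduct, Matrix.map_apply, Pi.zero_apply]
    exact sub_eq_zero.mpr hc.symm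
  have hPψ : P.map ψ = minpoly K⟮X.f⟯ w := by
    refine (minpoly.unique' _ _ (hPm.map ψ) ?_ fun q hq => ?_)
    · rw [aeval_def, eval₂_map, ← hroot]
      exact congrArg (fun g => P.eval₂ g w) (RingHom.ext hψF)
    · rw [or_iff_not_imp_left]
      intro hq0 h
      have h1 := minpoly.degree_le_of_ne_zero K⟮X.f⟯ w hq0 h
      rw [degree_eq_natDegree (minpoly.ne_zero hint), hdeg] at h1
      rw [degree_eq_natDegree (hPm.map ψ).ne_zero, hPm.natDegree_map, hPd] at hq
      exact absurd (h1.trans_lt hq) (lt_irrefl _)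
  obtain ⟨R, A, B, hAB, hR⟩ := exists_bezout_derivative hPm (by rw [hPd]; omega)
  have hR0 : R ≠ 0 := fun h => hR ψ (hPψ ▸ (minpoly.irreducible hint).separable) (by rw [h, map_zero])
  -- the powers of `w` in the basis
  set T : Matrix (Fin (X.c + 1)) (Fin (X.c + 1)) K[X] := fun i k => Fr.coord (w ^ (i : ℕ)) k
  have hwi : ∀ i : ℕ, w ^ i ∈ X.L (i * (m * (X.c + 1))) := fun i => by
    induction i with
    | zero => simpa using X.one_mem_L 0
    | succ i ih => rw [pow_succ, Nat.succ_mul]; exact Setup.mul_mem_L ih hwL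
  have hT : ∀ i : Fin (X.c + 1), ∑ k, aeval X.f (T i k) * Fr.b k = w ^ (i : ℕ) := fun i =>
    Fr.comb_coord (hwi i)
  have hdet : T.det ≠ 0 := fun h => by
    obtain ⟨v, hv, hvT⟩ := Matrix.exists_vecMul_eq_zero_iff.mpr h
    have e : ∑ i, aeval X.f (v i) * w ^ (i : ℕ) = 0 := by
      simp_rw [← hT, Finset.mul_sum]
      rw [Finset.sum_comm]
      refine Finset.sum_eq_zero fun k _ => ?_
      have := congrFun hvT k
      simp only [Matrix.vecMul, dotProduct, Pi.zero_apply] at this
      simp_rw [← mul_assoc, ← map_mul, ← Finset.sum_mul, ← map_sum, this, map_zero, zero_mul]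
    set q : K⟮X.f⟯[X] := ∑ i : Fin (X.c + 1), C (ψ (v i)) * Polynomial.X ^ (i : ℕ) with hq
    have hq0 : q = 0 := by
      by_contra hne
      have h1 := natDegree_le_of_dvd (minpoly.dvd K⟮X.f⟯ w (p := q) (by
        rw [← e, hq, map_sum]
        exact Finset.sum_congr rfl fun i _ => by rw [map_mul, aeval_C, map_pow, aeval_X, hψF])) hne
      have h2 : q.natDegree ≤ X.c :=
        natDegree_sum_le_of_forall_le _ _ fun i _ =>
          (natDegree_C_mul_X_pow_le _ _).trans (Nat.lt_succ_iff.mp i.2)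
      omega
    refine hv (funext fun i => ?_)
    by_contra hvi
    refine hψ0 (v i) hvi ?_
    have := congrArg (fun q => coeff q (i : ℕ)) hq0
    simpa [hq, hψ, finsetSum_coeff, coeff_C_mul_X_pow, Fin.val_inj] using this
  refine ⟨⟨w, P, T.det * R, ⟨_, hwL⟩, hPm, hPd, hroot, mul_ne_zero hdet hR0, fun n a ha => ?_,
    fun c hc => ?_⟩⟩
  · obtain ⟨q, hq, -⟩ := Fr.exists_comb ha
    refine ⟨1, ∑ k, C (R * q k) * ∑ i : Fin (X.c + 1), C (T.adjugate k i) * Polynomial.X ^ (i : ℕ),
      ?_⟩
    simp only [ev2_sum, ev2_mul, ev2_C, ev2_X, ev2_pow, pow_one, map_mul]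
    rw [← hq, show Fr.comb q = ∑ k, aeval X.f (q k) * Fr.b k from rfl, Finset.mul_sum]
    refine Finset.sum_congr rfl fun k _ => ?_
    have e : ∑ i, aeval X.f (T.adjugate k i) * w ^ (i : ℕ) = aeval X.f T.det * Fr.b k := by
      simp_rw [← hT, Finset.mul_sum]
      rw [Finset.sum_comm]
      simp_rw [← mul_assoc, ← map_mul, ← Finset.sum_mul, ← map_sum]
      have h1 : ∀ l, ∑ i, T.adjugate k i * T i l = if k = l then T.det else 0 := fun l => by
        have := congrFun (congrFun (Matrix.adjugate_mul T) k) l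
        rwa [Matrix.mul_apply, Matrix.smul_apply, Matrix.one_apply, smul_eq_mul, mul_ite,
          mul_one, mul_zero] at this
      simp only [h1, apply_ite, map_zero, ite_mul, zero_mul, Finset.sum_ite_eq, Finset.mem_univ,
        if_true]
    rw [e]
    ring
  · rw [eval_mul, mul_ne_zero_iff] at hc
    refine ⟨C (R.eval c)⁻¹ * A.map (evalRingHom c), C (R.eval c)⁻¹ * B.map (evalRingHom c), ?_⟩
    rw [derivative_map, mul_assoc, mul_assoc, ← mul_add, ← Polynomial.map_mul, ← Polynomial.map_mul,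
      ← Polynomial.map_add, hAB, Polynomial.map_C, coe_evalRingHom, ← map_mul,
      inv_mul_cancel₀ hc.2, map_one]

end Fermat.Agent.MCurve.T27
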