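/-
The finitely many conditions for good reduction of a frame and a coordinate; they hold over a
finitely generated ring of constants.
-/
import Fermat.Agent.MCurve.T27.Reduction.Coordinate
import Fermat.Agent.MCurve.MW.Points

set_option autoImplicit false
set_option linter.unusedSectionVars false

noncomputable section

namespace Fermat.Agent.MCurve.T27

open AlgebraicCurve RR MW Polynomial
open scoped Classical

variable {K F : Type*} [Field K] [Field F] [Algebra K F] [IsAlgClosed K]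
  [∀ v : Place K F, v.FiniteResidue] [HasPrincipalDivisors K F] [Nonempty (Place K F)]
  {X : Setup K F}

/-- Coefficients in a subring. -/
def CoeffIn (S : Subring K) (p : K[X]) : Prop := ∀ n, p.coeff n ∈ S

/-- Coefficients of coefficients in a subring. -/
def CoeffIn₂ (S : Subring K) (H : K[X][X]) : Prop := ∀ n, CoeffIn S (H.coeff n)

/-- A function with coefficients in a subring. -/
def Frame.Over (Fr : Frame X) (S : Subring K) (a : F) : Prop :=
  ∃ p, (∀ i, CoeffIn S (p i)) ∧ Fr.comb p = a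

theorem sub_algebraMap_f_ne_zero (X : Setup K F) (c : K) : X.f - algebraMap K F c ≠ 0 := fun h =>
  X.f_fin.transcendental ((sub_eq_zero.mp h).symm ▸ isAlgebraic_algebraMap c)

/-- The points over a value of the coordinate. -/
def fibreAt (X : Setup K F) (c : K) : Finset X.Pt :=
  (X.finite_zeros (sub_algebraMap_f_ne_zero X c)).toFinset

theorem mem_fibreAt {c : K} {P : X.Pt} :
    P ∈ fibreAt X c ↔ 0 < P.1.ord (X.f - algebraMap K F c) := by
  rw [fibreAt, Set.Finite.mem_toFinset]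
  exact ⟨fun h => h.resolve_left (sub_algebraMap_f_ne_zero X c), Or.inr⟩

theorem valAt_f_of_mem_fibreAt {c : K} {P : X.Pt} (h : P ∈ fibreAt X c) : valAt P.1 X.f = c :=
  valAt_eq (Or.inr (mem_fibreAt.mp h))

/-- The conditions of good reduction at a subring. -/
structure Good (Fr : Frame X) (Co : Coordinate X) (S : Subring K) : Prop where
  m_mem : ∀ i j k, CoeffIn S (Fr.m i j k)
  t_mem : ∀ i j, (Fr.t i j)⁻¹ ∈ S
  one_over : Fr.Over S 1
  w_over : Fr.Over S Co.w
  P_mem : CoeffIn₂ S Co.P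
  Δ_mem : CoeffIn S Co.Δ
  Δ_lead : (Co.Δ.leadingCoeff)⁻¹ ∈ S
  sep : ∃ (M : ℕ) (A B : K[X][X]), CoeffIn₂ S A ∧ CoeffIn₂ S B ∧
    A * Co.P + B * derivative Co.P = C (Co.Δ ^ M)
  clear : ∀ i, ∃ (N : ℕ) (H : K[X][X]), CoeffIn₂ S H ∧
    aeval X.f (Co.Δ ^ N) * Fr.b i = ev2 X.f Co.w H
  root_mem : ∀ c, Co.Δ.eval c = 0 → c ∈ S
  val_mem : ∀ c, Co.Δ.eval c = 0 → ∀ P ∈ fibreAt X c, ∀ i, valAt P.1 (Fr.b i) ∈ S
  unif : ∀ c, Co.Δ.eval c = 0 → ∀ P ∈ fibreAt X c, ∃ a s : F, Fr.Over S a ∧ Fr.Over S s ∧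
    valAt P.1 a = 0 ∧ valAt P.1 s ≠ 0 ∧ (valAt P.1 s)⁻¹ ∈ S ∧
    (∃ q, Fr.Over S q ∧ s * (X.f - algebraMap K F c) = a * q) ∧
    ∀ i, ∃ q, Fr.Over S q ∧ s * (Fr.b i - algebraMap K F (valAt P.1 (Fr.b i))) = a * q
  prod : ∀ c, Co.Δ.eval c = 0 → ∀ e : ↥(fibreAt X c) → Fin (X.c + 1), ∃ q, Fr.Over S q ∧
    ∏ P, (Fr.b (e P) - algebraMap K F (valAt P.1.1 (Fr.b (e P)))) ^ (X.c + 1) =
      (X.f - algebraMap K F c) * q

/-- A property holding over all large enough subrings. -/
def Eventually' (p : Subring K → Prop) : Prop := ∃ T : Finset K, ∀ S : Subring K, ↑T ⊆ (S : Set K) → p S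

theorem Eventually'.mem (x : K) : Eventually' fun S => x ∈ S :=
  ⟨{x}, fun S h => h (by simp)⟩

theorem Eventually'.mono {p q : Subring K → Prop} (hp : Eventually' p) (h : ∀ S, p S → q S) :
    Eventually' q :=
  hp.imp fun T hT S hS => h S (hT S hS)

theorem Eventually'.of_true {p : Subring K → Prop} (h : ∀ S, p S) : Eventually' p :=
  ⟨∅, fun S _ => h S⟩

theorem Eventually'.and {p q : Subring K → Prop} (hp : Eventually' p) (hq : Eventually' q) :
    Eventually' fun S => p S ∧ q S := by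
  obtain ⟨T, hT⟩ := hp
  obtain ⟨U, hU⟩ := hq
  exact ⟨T ∪ U, fun S hS => ⟨hT S fun x hx => hS (by simp [Finset.mem_coe.mp hx]),
    hU S fun x hx => hS (by simp [Finset.mem_coe.mp hx])⟩⟩

theorem Eventually'.all {ι : Type*} [Finite ι] {p : ι → Subring K → Prop}
    (hp : ∀ i, Eventually' (p i)) : Eventually' fun S => ∀ i, p i S := by
  cases nonempty_fintype ι
  choose T hT using hp
  exact ⟨Finset.univ.biUnion T, fun S hS i => hT i S fun x hx => hS (Finset.mem_coe.mpr
    (Finset.mem_biUnion.mpr ⟨i, Finset.mem_univ _, hx⟩))⟩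

theorem Eventually'.coeffIn (p : K[X]) : Eventually' fun S => CoeffIn S p :=
  ⟨(Finset.range (p.natDegree + 1)).image p.coeff, fun S hS n => by
    rcases lt_or_ge p.natDegree n with h | h
    · rw [coeff_eq_zero_of_natDegree_lt h]; exact zero_mem S
    · exact hS (Finset.mem_coe.mpr (Finset.mem_image_of_mem _ (Finset.mem_range.mpr (by omega))))⟩

theorem Eventually'.coeffIn₂ (H : K[X][X]) : Eventually' fun S => CoeffIn₂ S H :=
  (Eventually'.all fun n : Fin (H.natDegree + 1) => Eventually'.coeffIn (H.coeff n)).mono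
    fun S h n => by
      rcases lt_or_ge H.natDegree n with hn | hn
      · rw [coeff_eq_zero_of_natDegree_lt hn]; exact fun m => by simp [zero_mem]
      · exact h ⟨n, by omega⟩

variable (Fr : Frame X)

theorem Eventually'.over {n : ℕ} {a : F} (ha : a ∈ X.L n) : Eventually' fun S => Fr.Over S a :=
  (Eventually'.all fun i => Eventually'.coeffIn (Fr.coord a i)).mono
    fun _ h => ⟨_, h, Fr.comb_coord ha⟩

theorem exists_mem_L_of_regular {a : F} (h : ∀ v : Place K F, v ≠ X.inf → a ∈ v.toValuationSubring) :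
    ∃ n, a ∈ X.L n :=
  ⟨(-X.inf.ord a).toNat, Setup.mem_L.mpr (Or.inr ⟨fun v hv => ord_nonneg_of_mem' v (h v hv),
    by omega⟩)⟩

theorem ord_le_degree (P : X.Pt) (c : K) :
    P.1.ord (X.f - algebraMap K F c) ≤ ((X.c + 1 : ℕ) : ℤ) := by
  set h := X.f - algebraMap K F c
  have hle : Finsupp.single P.1 (P.1.ord h) ≤ divOf K h + Finsupp.single X.inf ((X.c + 1 : ℕ) : ℤ) := by
    refine Finsupp.le_def.mpr fun v => ?_
    rw [Finsupp.add_apply, divOf_apply, Finsupp.single_apply, Finsupp.single_apply]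
    have hinf : X.inf.ord h = -((X.c : ℤ) + 1) := by
      rcases eq_or_ne c 0 with rfl | hc
      · simp [h, X.f_inf]
      · rw [show h = X.f + -algebraMap K F c from sub_eq_add_neg _ _,
          MCurve.ord_add_eq _ (Frame.f_ne_zero (X := X))
            (neg_ne_zero.mpr ((_root_.map_ne_zero _).mpr hc))
            (by rw [MCurve.ord_neg, MCurve.ord_algebraMap, X.f_inf]; omega), X.f_inf]
    have hv : v ≠ X.inf → 0 ≤ v.ord h := fun hv => by
      refine ord_nonneg_of_mem' v (sub_mem ?_ (v.algebraMap_mem' c))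
      exact (mem_iff_ord_nonneg v (Frame.f_ne_zero (X := X))).mpr
        (X.f_pole v hv)
    split_ifs with h1 h2 h2
    · exact absurd (h1.trans h2.symm) P.2
    · subst h1; omega
    · subst h2; rw [hinf]; push_cast; omega
    · have := hv (Ne.symm h2); omega
  have := degree_le_of_le hle
  rw [map_add, degree_divOf, Divisor.degree_single, Divisor.degree_single, deg_one, deg_one] at this
  simpa using this

theorem exists_uniformizer (P : X.Pt) :
    ∃ (a s : F) (n : ℕ), a ∈ X.L n ∧ s ∈ X.L n ∧ valAt P.1 a = 0 ∧ valAt P.1 s ≠ 0 ∧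
      ∀ (y : F) (j : ℕ), y ∈ X.L j → valAt P.1 y = 0 → ∃ n, ∃ q ∈ X.L n, s * y = a * q := by
  obtain ⟨a, ha, ha0, haP⟩ := X.hR.exists_ord_eq
    (D := Finsupp.single X.inf ((X.c + 2 : ℕ) : ℤ) - Finsupp.single P.1 1)
    (by rw [map_sub, X.degree_L, degree_single_one]; push_cast; omega) P.1
  rw [Finsupp.sub_apply, Finsupp.single_eq_same, Finsupp.single_eq_of_ne P.2] at haP
  have haL : a ∈ X.L (X.c + 2) := space_mono (sub_le_self _ (Finsupp.single_nonneg.mpr zero_le_one)) ha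
  set E : Divisor K F := (((divOf K a).mapRange (fun z => max z 0) (by simp)).erase P.1).erase X.inf
    with hE
  have hE0 : 0 ≤ E := Finsupp.le_def.mpr fun v => by
    simp only [hE, Finsupp.zero_apply, Finsupp.erase_apply, Finsupp.mapRange_apply]
    split_ifs <;> omega
  obtain ⟨e, he⟩ := Int.eq_ofNat_of_zero_le (degree_nonneg hE0)
  obtain ⟨s, hs, hs0, hsP⟩ := X.hR.exists_ord_eq
    (D := Finsupp.single X.inf ((X.c + 1 + e : ℕ) : ℤ) - E)
    (by rw [map_sub, X.degree_L, he]; push_cast; omega) P.1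
  have hEP : E P.1 = 0 := by simp [hE, P.2]
  rw [Finsupp.sub_apply, hEP, Finsupp.single_eq_of_ne P.2] at hsP
  have hsL : s ∈ X.L (X.c + 1 + e) := space_mono (sub_le_self _ hE0) hs
  refine ⟨a, s, X.c + 2 + e, Setup.L_mono (by omega) haL, Setup.L_mono (by omega) hsL,
    (valAt_eq_zero_iff (Setup.mem_ring haL P.2)).mpr (Or.inr (by omega)), fun h => ?_,
    fun y j hy hy0 => ?_⟩
  · have := ((valAt_eq_zero_iff (Setup.mem_ring hsL P.2)).mp h).resolve_left hs0
    omega
  rcases eq_or_ne y 0 with rfl | hyne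
  · exact ⟨0, 0, zero_mem _, by simp⟩
  obtain ⟨n, hn⟩ := exists_mem_L_of_regular (X := X) (a := s * y / a) fun v hv => by
    rw [mem_iff_ord_nonneg _ (div_ne_zero (mul_ne_zero hs0 hyne) ha0), div_eq_mul_inv,
      v.ord_mul (mul_ne_zero hs0 hyne) (inv_ne_zero ha0), v.ord_inv, v.ord_mul hs0 hyne]
    have h1 := ord_nonneg_of_mem' v (Setup.mem_ring hy hv)
    rcases eq_or_ne v P.1 with rfl | hvP
    · have := ((valAt_eq_zero_iff (Setup.mem_ring hy hv)).mp hy0).resolve_left hyne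
      omega
    · have h2 := ((mem_space_iff.mp hs).resolve_left hs0) v
      have h3 : v.ord a ≤ E v := by simp [hE, hv, hvP, divOf_apply]
      rw [Finsupp.sub_apply, Finsupp.single_eq_of_ne hv] at h2
      omega
  exact ⟨n, _, hn, (mul_div_cancel₀ _ ha0).symm⟩

theorem exists_pow_eq_eval_root {R Δ : K[X]} (hR : R ≠ 0)
    (h : ∀ c, Δ.eval c ≠ 0 → R.eval c ≠ 0) : ∃ (M : ℕ) (T : K[X]), R * T = Δ ^ M := by
  refine ⟨R.natDegree, ?_⟩
  have hsp := IsAlgClosed.splits R
  have e : C R.leadingCoeff * (R.roots.map fun c => X - C c).prod = R :=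
    (hsp.eq_prod_roots).symm
  have hd : (R.roots.map fun c => X - C c).prod ∣ Δ ^ R.natDegree := by
    rw [hsp.natDegree_eq_card_roots, ← Multiset.prod_replicate, ← Multiset.map_const']
    refine Multiset.prod_dvd_prod_of_dvd _ _ fun c hc => dvd_iff_isRoot.mpr ?_
    by_contra hne
    exact h c hne (isRoot_of_mem_roots hc)
  obtain ⟨T, hT⟩ := hd
  refine ⟨C R.leadingCoeff⁻¹ * T, ?_⟩
  calc R * (C R.leadingCoeff⁻¹ * T)
      = C R.leadingCoeff * (R.roots.map fun c => X - C c).prod * (C R.leadingCoeff⁻¹ * T) := by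
        rw [e]
    _ = (C R.leadingCoeff * C R.leadingCoeff⁻¹) * ((R.roots.map fun c => X - C c).prod * T) := by ring
    _ = _ := by
      rw [← map_mul, mul_inv_cancel₀ (leadingCoeff_ne_zero.mpr hR), map_one, one_mul, hT]

/-- The conditions hold over a finitely generated ring of constants. -/
theorem exists_good [CharZero K] (Fr : Frame X) (Co : Coordinate X) :
    Eventually' (Good Fr Co) := by
  obtain ⟨R, A, B, hAB, hR⟩ := exists_bezout_derivative Co.monic (by rw [Co.natDegree_eq]; omega)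
  have hev : ∀ c, Co.Δ.eval c ≠ 0 → R.eval c ≠ 0 := fun c hc => hR (evalRingHom c) (Co.sep c hc)
  have hR0 : R ≠ 0 := fun h => by
    obtain ⟨c, hc⟩ := Polynomial.exists_eval_ne_zero_of_natDegree_lt_card Co.Δ Co.Δ_ne
      (Cardinal.natCast_lt_aleph0.trans_le (Cardinal.aleph0_le_mk K))
    exact hev c hc (by rw [h, eval_zero])
  obtain ⟨M, T, hT⟩ := exists_pow_eq_eval_root hR0 hev
  obtain ⟨nw, hw⟩ := Co.w_mem
  choose N H hH using fun i => Co.clear _ _ (Fr.mem i)
  have hsep : (C T * A) * Co.P + (C T * B) * derivative Co.P = C (Co.Δ ^ M) := by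
    rw [← hT, map_mul, ← hAB]; ring
  have hroot : ∀ c, Co.Δ.eval c = 0 ↔ c ∈ Co.Δ.roots.toFinset := fun c => by
    rw [Multiset.mem_toFinset, mem_roots Co.Δ_ne, IsRoot.def]
  choose a s n ha hs ha0 hs0 hq using fun P : X.Pt => exists_uniformizer P
  have hfL : ∀ c, X.f - algebraMap K F c ∈ X.L (X.c + 1) := fun c =>
    sub_mem (by simpa using X.f_pow_mem 1 (n := X.c + 1) (by omega))
      (by rw [Algebra.algebraMap_eq_smul_one]; exact Submodule.smul_mem _ _ (X.one_mem_L _))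
  have hbL : ∀ (P : X.Pt) i, Fr.b i - algebraMap K F (valAt P.1 (Fr.b i)) ∈ X.L (Fr.ρ i) :=
    fun P i => sub_mem (Fr.mem i)
      (by rw [Algebra.algebraMap_eq_smul_one]; exact Submodule.smul_mem _ _ (X.one_mem_L _))
  have hb0 : ∀ (P : X.Pt) i, valAt P.1 (Fr.b i - algebraMap K F (valAt P.1 (Fr.b i))) = 0 :=
    fun P i => valAt_eq (van_sub.mpr (by
      rw [map_zero, sub_zero]; exact van_sub.mp (valAt_spec (Setup.mem_ring (Fr.mem i) P.2))))
  have hprod : ∀ c (e : ↥(fibreAt X c) → Fin (X.c + 1)), ∃ n, ∃ q ∈ X.L n,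
      ∏ P, (Fr.b (e P) - algebraMap K F (valAt P.1.1 (Fr.b (e P)))) ^ (X.c + 1) =
        (X.f - algebraMap K F c) * q := fun c e => by
    set y := ∏ P, (Fr.b (e P) - algebraMap K F (valAt P.1.1 (Fr.b (e P)))) ^ (X.c + 1) with hy
    rcases eq_or_ne y 0 with hy0 | hy0
    · exact ⟨0, 0, zero_mem _, by rw [mul_zero, hy0]⟩
    obtain ⟨n, hn⟩ := exists_mem_L_of_regular (X := X) (a := y / (X.f - algebraMap K F c))
      fun v hv => by
      have hne := sub_algebraMap_f_ne_zero X c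
      have hmem : ∀ P : ↥(fibreAt X c), (Fr.b (e P) - algebraMap K F (valAt P.1.1 (Fr.b (e P)))) ^
          (X.c + 1) ∈ v.toValuationSubring := fun P => pow_mem (Setup.mem_ring (hbL _ _) hv) _
      by_cases hvc : (⟨v, hv⟩ : X.Pt) ∈ fibreAt X c
      · set P₀ : ↥(fibreAt X c) := ⟨⟨v, hv⟩, hvc⟩
        set u := Fr.b (e P₀) - algebraMap K F (valAt v (Fr.b (e P₀))) with hu
        have hrest : ∏ P ∈ Finset.univ.erase P₀,
            (Fr.b (e P) - algebraMap K F (valAt P.1.1 (Fr.b (e P)))) ^ (X.c + 1) ∈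
              v.toValuationSubring := prod_mem fun P _ => hmem P
        rw [hy, ← Finset.mul_prod_erase _ _ (Finset.mem_univ P₀), div_eq_mul_inv, mul_right_comm]
        refine mul_mem ?_ hrest
        rcases eq_or_ne u 0 with h0 | h0
        · show u ^ (X.c + 1) * _ ∈ _
          rw [h0, zero_pow (by omega), zero_mul]; exact zero_mem _
        show u ^ (X.c + 1) * _ ∈ _
        rw [mem_iff_ord_nonneg _ (mul_ne_zero (pow_ne_zero _ h0) (inv_ne_zero hne)),
          v.ord_mul (pow_ne_zero _ h0) (inv_ne_zero hne), v.ord_inv, MCurve.ord_pow]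
        have h1 := ((valAt_eq_zero_iff (Setup.mem_ring (hbL ⟨v, hv⟩ (e P₀)) hv)).mp
          (hb0 ⟨v, hv⟩ (e P₀))).resolve_left h0
        have h2 := ord_le_degree ⟨v, hv⟩ c
        change 0 < v.ord u at h1
        simp only at h2
        nlinarith
      · rw [div_eq_mul_inv]
        refine mul_mem (prod_mem fun P _ => hmem P) ?_
        rw [mem_iff_ord_nonneg _ (inv_ne_zero hne), v.ord_inv]
        rw [mem_fibreAt] at hvc
        simp only at hvc
        omega
    exact ⟨n, _, hn, (mul_div_cancel₀ _ (sub_algebraMap_f_ne_zero X c)).symm⟩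
  choose np qp hqp hpe using hprod
  choose nf qf hqf hfe using fun (c : K) (P : ↥(fibreAt X c)) =>
    hq P.1 (X.f - algebraMap K F c) _ (hfL c) (valAt_eq (van_sub.mpr (by
      rw [map_zero, sub_zero]; exact Or.inr (mem_fibreAt.mp P.2))))
  choose nb qb hqb hbe using fun (P : X.Pt) i => hq P _ _ (hbL P i) (hb0 P i)
  have e1 := (Eventually'.all fun i => Eventually'.all fun j => Eventually'.all fun k =>
    Eventually'.coeffIn (Fr.m i j k)).and (Eventually'.all fun i => Eventually'.all fun j =>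
      Eventually'.mem (Fr.t i j)⁻¹)
  have e2 := (Eventually'.over Fr (X.one_mem_L 0)).and (Eventually'.over Fr hw)
  have e3 := ((Eventually'.coeffIn₂ Co.P).and (Eventually'.coeffIn Co.Δ)).and
    (((Eventually'.mem Co.Δ.leadingCoeff⁻¹).and
      ((Eventually'.coeffIn₂ (C T * A)).and (Eventually'.coeffIn₂ (C T * B)))).and
      (Eventually'.all fun i => Eventually'.coeffIn₂ (H i)))
  have e4 := Eventually'.all fun c : ↥Co.Δ.roots.toFinset => (Eventually'.mem c.1).and
    ((Eventually'.all fun P : ↥(fibreAt X c.1) =>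
      ((Eventually'.all fun i => (Eventually'.mem (valAt P.1.1 (Fr.b i))).and
          (Eventually'.over Fr (hqb P.1 i))).and
        ((Eventually'.over Fr (ha P.1)).and ((Eventually'.over Fr (hs P.1)).and
          ((Eventually'.mem (valAt P.1.1 (s P.1))⁻¹).and (Eventually'.over Fr (hqf c.1 P))))))).and
      (Eventually'.all fun e => Eventually'.over Fr (hqp c.1 e)))
  refine ((e1.and e2).and (e3.and e4)).mono ?_
  rintro S ⟨⟨⟨hm, ht⟩, ho, hwo⟩, ⟨⟨hP, hΔ⟩, ⟨⟨hl, hA, hB⟩, hH'⟩⟩, hc⟩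
  refine ⟨hm, ht, ho, hwo, hP, hΔ, hl, ⟨M, _, _, hA, hB, hsep⟩,
    fun i => ⟨N i, H i, hH' i, hH i⟩, fun c h => (hc ⟨c, (hroot c).mp h⟩).1,
    fun c h P hP i => (((hc ⟨c, (hroot c).mp h⟩).2.1 ⟨P, hP⟩).1 i).1,
    fun c h P hP => ?_, fun c h e => ⟨_, (hc ⟨c, (hroot c).mp h⟩).2.2 e, hpe c e⟩⟩
  obtain ⟨hb, hao, hso, hsv, hfo⟩ := (hc ⟨c, (hroot c).mp h⟩).2.1 ⟨P, hP⟩
  exact ⟨a P, s P, hao, hso, ha0 P, hs0 P, hsv, ⟨_, hfo, hfe c ⟨P, hP⟩⟩,
    fun i => ⟨_, (hb i).2, hbe P i⟩⟩

end Fermat.Agent.MCurve.T27
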