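/-
The integral affine ring of a frame over a valuation ring, and its reduction as a domain.
-/
import Fermat.Agent.MCurve.T27.Reduction.Good
import Mathlib.Algebra.Field.ULift

set_option autoImplicit false
set_option linter.unusedSectionVars false

noncomputable section

namespace Fermat.Agent.MCurve.T27

open AlgebraicCurve RR MW Polynomial
open scoped Classical

universe u v

variable {K : Type u} {F : Type v} [Field K] [Field F] [Algebra K F] [IsAlgClosed K]
  [∀ v : Place K F, v.FiniteResidue] [HasPrincipalDivisors K F] [Nonempty (Place K F)]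
  {X : Setup K F} (Fr : Frame X)

theorem Frame.wt_le_iff {S : Type*} [CommRing S] {p : Fin (X.c + 1) → S[X]} {n : ℕ} :
    Fr.wt p ≤ n ↔ ∀ i, p i ≠ 0 → Fr.ρ i + (X.c + 1) * (p i).natDegree ≤ n := by
  refine ⟨fun h i hi => (Fr.le_wt hi).trans h, fun h => Finset.sup_le fun i _ => ?_⟩
  split_ifs with hi
  · exact Nat.zero_le _
  · exact h i hi

theorem Frame.wt_map_le {S T : Type*} [CommRing S] [CommRing T] (φ : S →+* T)
    (p : Fin (X.c + 1) → S[X]) : Fr.wt (fun i => (p i).map φ) ≤ Fr.wt p :=
  Fr.wt_le_iff.mpr fun i hi => le_trans (Nat.add_le_add_left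
    (Nat.mul_le_mul_left _ natDegree_map_le) _) (Fr.le_wt fun h => hi (by simp [h]))

/-- A homomorphism not killing the leading coefficient keeps weight and leading coefficient. -/
theorem Frame.wt_map {S T : Type*} [CommRing S] [CommRing T] (φ : S →+* T)
    {p : Fin (X.c + 1) → S[X]} (hp : p ≠ 0) (h : φ (Fr.lead p) ≠ 0) :
    (fun i => (p i).map φ) ≠ 0 ∧ Fr.wt (fun i => (p i).map φ) = Fr.wt p ∧
      Fr.lead (fun i => (p i).map φ) = φ (Fr.lead p) := by
  obtain ⟨h1, h2⟩ := Fr.top_spec hp
  have hd : ((p (Fr.top p)).map φ).natDegree = (p (Fr.top p)).natDegree :=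
    natDegree_map_of_leadingCoeff_ne_zero φ h
  have hne : (p (Fr.top p)).map φ ≠ 0 := fun e => h (by
    have := congrArg (fun q => Polynomial.coeff q (p (Fr.top p)).natDegree) e
    simp only [coeff_map, coeff_zero] at this
    exact this)
  have hwt : Fr.wt (fun i => (p i).map φ) = Fr.wt p :=
    le_antisymm (Fr.wt_map_le φ p) (by
      rw [h2, ← hd]
      exact Fr.le_wt (p := fun i => (p i).map φ) hne)
  have htop : Fr.top (fun i => (p i).map φ) = Fr.top p := Fin.ext (congrArg (· % (X.c + 1)) hwt)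
  refine ⟨fun e => hne (congrFun e _), hwt, ?_⟩
  show ((p (Fr.top fun i => (p i).map φ)).map φ).leadingCoeff = _
  rw [htop, leadingCoeff, hd, coeff_map]
  rfl

theorem exists_map_eq_of_coeffIn {V : ValuationSubring K} {p : K[X]} (h : CoeffIn V.toSubring p) :
    ∃ q : V[X], q.map V.subtype = p :=
  (mem_lifts p).mp ((lifts_iff_coeff_lifts p).mpr fun n => ⟨⟨p.coeff n, h n⟩, rfl⟩)

/-- The table and the coefficients of one, over the valuation ring. -/
structure IntData (V : ValuationSubring K) where
  /-- The table. -/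
  m : Fin (X.c + 1) → Fin (X.c + 1) → Fin (X.c + 1) → V[X]
  m_eq : ∀ i j k, (m i j k).map V.subtype = Fr.m i j k
  /-- The coefficients of one. -/
  one : Fin (X.c + 1) → V[X]
  one_eq : Fr.comb (fun i => (one i).map V.subtype) = 1
  t_inv : ∀ i j, (Fr.t i j)⁻¹ ∈ V

variable {Fr}

theorem Good.exists_intData {Co : Coordinate X} {V : ValuationSubring K}
    (hG : Good Fr Co V.toSubring) : Nonempty (IntData Fr V) := by
  choose m hm using fun i j k => exists_map_eq_of_coeffIn (hG.m_mem i j k)
  obtain ⟨p, hp, hp1⟩ := hG.one_over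
  choose o ho using fun i => exists_map_eq_of_coeffIn (hp i)
  exact ⟨⟨m, hm, o, by simp [ho, hp1], hG.t_mem⟩⟩

variable {V : ValuationSubring K} (D : IntData Fr V)

variable (Fr V) in
/-- The function with given integral coefficients. -/
def combV : (Fin (X.c + 1) → V[X]) →+ F where
  toFun p := Fr.comb fun i => (p i).map V.subtype
  map_zero' := by
    rw [show (fun i => ((0 : Fin (X.c + 1) → V[X]) i).map V.subtype) = 0 from
      funext fun i => Polynomial.map_zero _, map_zero]
  map_add' p q := by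
    rw [← map_add]; exact congrArg _ (funext fun i => Polynomial.map_add _)

theorem combV_injective : Function.Injective (combV Fr V) := fun p q h =>
  funext fun i => Polynomial.map_injective _ V.subtype_injective (congrFun (Fr.comb_injective h) i)

theorem combV_tableMul (p q : Fin (X.c + 1) → V[X]) :
    combV Fr V (tableMul D.m p q) = combV Fr V p * combV Fr V q := by
  show Fr.comb _ = _
  rw [show (fun k => (tableMul D.m p q k).map V.subtype) =
      tableMul Fr.m (fun i => (p i).map V.subtype) (fun i => (q i).map V.subtype) from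
    funext fun k => by
      rw [← coe_mapRingHom, map_tableMul]
      simp only [coe_mapRingHom, D.m_eq], Fr.comb_mul]
  rfl

/-- The integral affine ring. -/
def IntData.ring : Subring F where
  carrier := Set.range (combV Fr V)
  mul_mem' := by
    rintro _ _ ⟨p, rfl⟩ ⟨q, rfl⟩
    exact ⟨_, combV_tableMul D p q⟩
  one_mem' := ⟨D.one, D.one_eq⟩
  add_mem' := by
    rintro _ _ ⟨p, rfl⟩ ⟨q, rfl⟩
    exact ⟨p + q, map_add _ p q⟩
  zero_mem' := ⟨0, map_zero _⟩
  neg_mem' := by
    rintro _ ⟨p, rfl⟩
    exact ⟨-p, map_neg _ p⟩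

/-- The element with given coefficients. -/
def IntData.el (p : Fin (X.c + 1) → V[X]) : D.ring := ⟨combV Fr V p, p, rfl⟩

theorem IntData.exists_el (a : D.ring) : ∃ p, D.el p = a := by
  obtain ⟨p, hp⟩ := a.2
  exact ⟨p, Subtype.ext hp⟩

variable {k : Type*} [Field k] (res : V →+* k)

/-- The reduced table. -/
def IntData.mBar (i j l : Fin (X.c + 1)) : k[X] := (D.m i j l).map res

theorem map_res_tableMul (p q : Fin (X.c + 1) → V[X]) :
    (fun i => (tableMul D.m p q i).map res) =
      tableMul (D.mBar res) (fun i => (p i).map res) (fun i => (q i).map res) :=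
  funext fun l => by
    rw [← coe_mapRingHom, map_tableMul]
    rfl

/-- A lift with the same degrees. -/
theorem exists_lift_tuple {res : V →+* k} (hsurj : Function.Surjective res)
    (p : Fin (X.c + 1) → k[X]) :
    ∃ P : Fin (X.c + 1) → V[X], (fun i => (P i).map res) = p ∧ Fr.wt P = Fr.wt p ∧
      (p ≠ 0 → P ≠ 0 ∧ res (Fr.lead P) = Fr.lead p) := by
  have h : ∀ i, ∃ P : V[X], P.map res = p i ∧ P.degree = (p i).degree := fun i =>
    exists_degree_eq_of_mem_lifts ((lifts_iff_coeff_lifts _).mpr fun n => hsurj _)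
  choose P hP hd using h
  have hd' : ∀ i, (P i).natDegree = (p i).natDegree := fun i => natDegree_eq_natDegree (hd i)
  have h0 : ∀ i, P i = 0 ↔ p i = 0 := fun i => by
    rw [← degree_eq_bot, hd, degree_eq_bot]
  have hwt : Fr.wt P = Fr.wt p := Finset.sup_congr rfl fun i _ => by
    simp only [h0, hd']
  refine ⟨P, funext hP, hwt, fun hp => ⟨fun e => hp (funext fun i => (h0 i).mp (congrFun e i)), ?_⟩⟩
  have htop : Fr.top P = Fr.top p := Fin.ext (congrArg (· % (X.c + 1)) hwt)
  rw [Frame.lead, Frame.lead, htop, leadingCoeff, leadingCoeff, hd', ← hP, coeff_map, hP]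

variable (hsurj : Function.Surjective res)
  (hker : ∀ x : V, res x = 0 ↔ x ∈ IsLocalRing.maximalIdeal V)

include hker in
theorem res_ne_zero_of_inv_mem {x : V} (h0 : (x : K) ≠ 0) (h : (x : K)⁻¹ ∈ V) : res x ≠ 0 := by
  intro e
  exact (IsLocalRing.mem_maximalIdeal _).mp ((hker x).mp e)
    (isUnit_iff_exists_inv.mpr ⟨⟨_, h⟩, Subtype.ext (mul_inv_cancel₀ h0)⟩)

include hsurj hker in
/-- Weights add in the reduction. -/
theorem IntData.tableMul_mBar {p q : Fin (X.c + 1) → k[X]} (hp : p ≠ 0) (hq : q ≠ 0) :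
    tableMul (D.mBar res) p q ≠ 0 ∧
      Fr.wt (tableMul (D.mBar res) p q) = Fr.wt p + Fr.wt q := by
  obtain ⟨P, rfl, hPw, hP'⟩ := exists_lift_tuple (Fr := Fr) hsurj p
  obtain ⟨Q, rfl, hQw, hQ'⟩ := exists_lift_tuple (Fr := Fr) hsurj q
  obtain ⟨hP0, hPl⟩ := hP' hp
  obtain ⟨hQ0, hQl⟩ := hQ' hq
  have hinj : ∀ x : V, x ≠ 0 → V.subtype x ≠ 0 := fun x hx => fun e => hx (Subtype.ext e)
  obtain ⟨hP1, hPw1, hPl1⟩ := Fr.wt_map V.subtype hP0 (hinj _ (Fr.lead_ne_zero hP0))
  obtain ⟨hQ1, hQw1, hQl1⟩ := Fr.wt_map V.subtype hQ0 (hinj _ (Fr.lead_ne_zero hQ0))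
  obtain ⟨hR0, hRw, hRl⟩ := Fr.lead_tableMul hP1 hQ1
  set R := tableMul D.m P Q with hR
  have hRK : (fun i => (R i).map V.subtype) =
      tableMul Fr.m (fun i => (P i).map V.subtype) (fun i => (Q i).map V.subtype) :=
    funext fun l => by
      rw [hR, ← coe_mapRingHom, map_tableMul]
      simp only [coe_mapRingHom, D.m_eq]
  have hRne : R ≠ 0 := fun e => hR0 (by
    rw [← hRK, e]; funext i; simp)
  obtain ⟨-, hRw1, hRl1⟩ := Fr.wt_map V.subtype hRne (hinj _ (Fr.lead_ne_zero hRne))
  rw [hRK] at hRw1 hRl1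
  rw [hRl, hPl1, hQl1] at hRl1
  set i₀ := Fr.top fun i => (P i).map V.subtype
  set j₀ := Fr.top fun i => (Q i).map V.subtype
  have ht : Fr.t i₀ j₀ ∈ V := by
    have : Fr.t i₀ j₀ = ((D.m i₀ j₀ (Fr.top (Fr.m i₀ j₀))).map V.subtype).leadingCoeff := by
      rw [D.m_eq]; rfl
    rw [this, leadingCoeff, coeff_map]
    exact Subtype.mem _
  have ht0 : Fr.t i₀ j₀ ≠ 0 := by
    intro e
    rw [e, mul_zero] at hRl1
    exact hinj _ (Fr.lead_ne_zero hRne) hRl1.symm
  have e : Fr.lead R = Fr.lead P * Fr.lead Q * ⟨_, ht⟩ := Subtype.ext hRl1.symm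
  obtain ⟨h1, h2, -⟩ := Fr.wt_map res hRne (by
    rw [e, map_mul, map_mul, hPl, hQl]
    exact mul_ne_zero (mul_ne_zero (Fr.lead_ne_zero hp) (Fr.lead_ne_zero hq))
      (res_ne_zero_of_inv_mem res hker ht0 (D.t_inv _ _)))
  rw [hR, map_res_tableMul] at h1 h2
  exact ⟨h1, by rw [h2, ← hR, ← hPw, ← hQw, ← hRw1, hRw, hPw1, hQw1]⟩

/-- The coefficients of the reduction of an element. -/
def IntData.redT (a : D.ring) (i : Fin (X.c + 1)) : k[X] := (a.2.choose i).map res

theorem IntData.redT_el (p : Fin (X.c + 1) → V[X]) : D.redT res (D.el p) = fun i => (p i).map res :=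
  funext fun i => by
    rw [IntData.redT, combV_injective (D.el p).2.choose_spec]

theorem IntData.el_add (p q : Fin (X.c + 1) → V[X]) : D.el (p + q) = D.el p + D.el q :=
  Subtype.ext (map_add (combV Fr V) p q)

theorem IntData.el_mul (p q : Fin (X.c + 1) → V[X]) : D.el (tableMul D.m p q) = D.el p * D.el q :=
  Subtype.ext (combV_tableMul D p q)

theorem IntData.el_one : D.el D.one = 1 := Subtype.ext D.one_eq

theorem IntData.redT_mul (a b : D.ring) :
    D.redT res (a * b) = tableMul (D.mBar res) (D.redT res a) (D.redT res b) := by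
  obtain ⟨p, rfl⟩ := D.exists_el a
  obtain ⟨q, rfl⟩ := D.exists_el b
  rw [← D.el_mul, D.redT_el, D.redT_el, D.redT_el, map_res_tableMul]

/-- The kernel of the reduction. -/
def IntData.ker : Ideal D.ring where
  carrier := {a | D.redT res a = 0}
  add_mem' {a b} ha hb := by
    obtain ⟨p, rfl⟩ := D.exists_el a
    obtain ⟨q, rfl⟩ := D.exists_el b
    simp only [Set.mem_setOf_eq, D.redT_el, ← D.el_add] at *
    funext i
    rw [Pi.add_apply, Polynomial.map_add, congrFun ha i, congrFun hb i]
    simp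
  zero_mem' := by
    show D.redT res 0 = 0
    rw [show (0 : D.ring) = D.el 0 from Subtype.ext (map_zero (combV Fr V)).symm, D.redT_el]
    funext i
    simp
  smul_mem' a b hb := by
    show D.redT res (a * b) = 0
    rw [D.redT_mul, (show D.redT res b = 0 from hb)]
    funext i
    simp [tableMul]

theorem IntData.mem_ker {a : D.ring} : a ∈ D.ker res ↔ D.redT res a = 0 := Iff.rfl

include hsurj hker in
theorem IntData.ker_isPrime : (D.ker res).IsPrime := by
  refine ⟨fun h => ?_, fun {a b} h => ?_⟩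
  · have h1 : D.redT res (1 : D.ring) = 0 := (D.mem_ker res).mp (h ▸ Submodule.mem_top)
    rw [← D.el_one, D.redT_el] at h1
    -- one has weight zero and unit leading coefficient
    have hone : (fun i => (D.one i).map V.subtype) ≠ 0 := fun e => one_ne_zero (α := F) (by
      rw [← D.one_eq, e, map_zero])
    obtain ⟨i, j, hij, hi, hl⟩ := Fr.sub_lead hone
    have hw : Fr.wt (fun i => (D.one i).map V.subtype) = 0 := by
      have := (Fr.ord_comb hone).2
      rw [D.one_eq, Place.ord_one] at this
      omega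
    have hm0 : Fr.m i i ≠ 0 := fun e => mul_ne_zero (Fr.ne_zero i) (Fr.ne_zero i)
      (by rw [← Fr.comb_m, e, map_zero])
    have hsq : tableMul Fr.m (fun i => (D.one i).map V.subtype) (fun i => (D.one i).map V.subtype) =
        fun i => (D.one i).map V.subtype := Fr.comb_injective (by rw [Fr.comb_mul, D.one_eq, one_mul])
    have hmul := (Fr.lead_tableMul hone hone).2.2
    rw [hsq] at hmul
    set l := Fr.lead fun i => (D.one i).map V.subtype
    have hl0 : l ≠ 0 := Fr.lead_ne_zero hone
    set i₀ := Fr.top fun i => (D.one i).map V.subtype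
    have hlt : l * Fr.t i₀ i₀ = 1 := mul_left_cancel₀ hl0 (by rw [← mul_assoc, ← hmul, mul_one])
    have hlV : l = V.subtype ((D.one i₀).coeff ((D.one i₀).map V.subtype).natDegree) := by
      show ((D.one i₀).map V.subtype).leadingCoeff = _
      rw [leadingCoeff, coeff_map]
    have hinv : l⁻¹ ∈ V := by
      rw [inv_eq_of_mul_eq_one_right hlt]
      have : Fr.t i₀ i₀ = ((D.m i₀ i₀ (Fr.top (Fr.m i₀ i₀))).map V.subtype).leadingCoeff := by
        rw [D.m_eq]; rfl
      rw [this, leadingCoeff, coeff_map]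
      exact Subtype.mem _
    rw [hlV] at hl0 hinv
    refine res_ne_zero_of_inv_mem res hker hl0 hinv ?_
    have := congrArg (fun q => Polynomial.coeff q ((D.one i₀).map V.subtype).natDegree) (congrFun h1 i₀)
    simpa [coeff_map] using this
  · rw [D.mem_ker, D.redT_mul] at h
    by_contra hne
    push Not at hne
    exact (D.tableMul_mBar res hsurj hker (fun e => hne.1 e) (fun e => hne.2 e)).1 h

/-- A reduction of the integral affine ring into a field, with the expected kernel. -/
structure IntData.Red (G : Type*) [Field G] [Algebra k G] where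
  /-- The reduction. -/
  red : D.ring →+* G
  red_const : ∀ (x : V) (h : algebraMap K F x ∈ D.ring),
    red ⟨algebraMap K F x, h⟩ = algebraMap k G (res x)
  red_eq_zero : ∀ a, red a = 0 ↔ D.redT res a = 0
  frac : ∀ x : G, ∃ a b, red b ≠ 0 ∧ x = red a / red b

theorem IntData.const_mem (x : V) : algebraMap K F (x : K) ∈ D.ring :=
  ⟨fun i => C x * D.one i, by
    show Fr.comb _ = _
    rw [show (fun i => (C x * D.one i).map V.subtype) =
      (x : K) • fun i => (D.one i).map V.subtype from funext fun i => by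
        rw [Polynomial.map_mul, Polynomial.map_C, Pi.smul_apply, smul_eq_C_mul]; rfl,
      map_smul, D.one_eq, Algebra.algebraMap_eq_smul_one]⟩

theorem IntData.exists_red {k : Type} [Field k] {res : V →+* k}
    (hsurj : Function.Surjective res)
    (hker : ∀ x : V, res x = 0 ↔ x ∈ IsLocalRing.maximalIdeal V) :
    ∃ (G : Type (max u v)) (_ : Field G) (_ : Algebra k G), Nonempty (D.Red res G) := by
  haveI := D.ker_isPrime res hsurj hker
  let c : V →+* D.ring ⧸ D.ker res :=
    (Ideal.Quotient.mk _).comp (((algebraMap K F).comp V.subtype).codRestrict D.ring D.const_mem)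
  have hc : RingHom.ker res ≤ RingHom.ker c := fun x hx => by
    rw [RingHom.mem_ker] at hx ⊢
    refine Ideal.Quotient.eq_zero_iff_mem.mpr ?_
    rw [D.mem_ker]
    obtain ⟨p, hp⟩ := D.exists_el ⟨algebraMap K F (x : K), D.const_mem x⟩
    have hp' : p = fun i => C x * D.one i := combV_injective (by
      have := congrArg Subtype.val hp
      refine this.trans ?_
      show _ = Fr.comb _
      rw [show (fun i => (C x * D.one i).map V.subtype) =
        (x : K) • fun i => (D.one i).map V.subtype from funext fun i => by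
          rw [Polynomial.map_mul, Polynomial.map_C, Pi.smul_apply, smul_eq_C_mul]; rfl,
        map_smul, D.one_eq]
      exact Algebra.algebraMap_eq_smul_one (x : K))
    show D.redT res ⟨algebraMap K F (x : K), D.const_mem x⟩ = 0
    rw [← hp, D.redT_el, hp']
    funext i
    simp [hx]
  let G0 := FractionRing (D.ring ⧸ D.ker res)
  let cG : k →+* ULift.{u} G0 :=
    ((ULift.ringEquiv (R := G0)).symm.toRingHom.comp (algebraMap _ G0)).comp
      (res.liftOfSurjective hsurj ⟨c, hc⟩)
  letI : Algebra k (ULift.{u} G0) := cG.toAlgebra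
  let red : D.ring →+* ULift.{u} G0 :=
    ((ULift.ringEquiv (R := G0)).symm.toRingHom.comp (algebraMap (D.ring ⧸ D.ker res) G0)).comp (Ideal.Quotient.mk (D.ker res))
  refine ⟨ULift.{u} G0, inferInstance, inferInstance, ⟨⟨red, fun x h => ?_, fun a => ?_,
    fun x => ?_⟩⟩⟩
  · show _ = cG (res x)
    simp only [cG, RingHom.comp_apply, RingHom.liftOfRightInverse_comp_apply]
    rfl
  · rw [← D.mem_ker, ← Ideal.Quotient.eq_zero_iff_mem]
    simp only [red, RingHom.comp_apply, RingEquiv.toRingHom_eq_coe, RingHom.coe_coe,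
      map_eq_zero_iff _ (ULift.ringEquiv (R := G0)).symm.injective]
    exact map_eq_zero_iff _ (IsFractionRing.injective _ G0)
  · obtain ⟨a, b, hb, hab⟩ := IsFractionRing.div_surjective (A := D.ring ⧸ D.ker res)
      (ULift.ringEquiv x)
    obtain ⟨a, rfl⟩ := Ideal.Quotient.mk_surjective a
    obtain ⟨b, rfl⟩ := Ideal.Quotient.mk_surjective b
    refine ⟨a, b, fun h => ?_, ?_⟩
    · simp only [red, RingHom.comp_apply, RingEquiv.toRingHom_eq_coe, RingHom.coe_coe,
        map_eq_zero_iff _ (ULift.ringEquiv (R := G0)).symm.injective] at h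
      exact nonZeroDivisors.ne_zero hb ((map_eq_zero_iff _ (IsFractionRing.injective _ G0)).mp h)
    · refine (ULift.ringEquiv (R := G0)).injective ?_
      rw [← hab, map_div₀]
      simp [red]

end Fermat.Agent.MCurve.T27
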