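/-
The reduced affine ring: its fraction field is a curve with a single place at infinity, and when it
is normal its Riemann–Roch spaces at infinity have the expected dimensions.
-/
import Fermat.Agent.MCurve.T27.Reduction.Reduce
import Mathlib.RingTheory.Valuation.ValuationSubring

set_option autoImplicit false
set_option linter.unusedSectionVars false

noncomputable section

namespace Fermat.Agent.MCurve.T27

open AlgebraicCurve RR MW Polynomial
open scoped Classical

universe u v

variable {K : Type u} {F : Type v} [Field K] [Field F] [Algebra K F] [IsAlgClosed K]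
  [∀ v : Place K F, v.FiniteResidue] [HasPrincipalDivisors K F] [Nonempty (Place K F)]
  {X : Setup K F} {Fr : Frame X} {V : ValuationSubring K} {D : IntData Fr V}
  {k : Type*} [Field k] [IsAlgClosed k] {res : V →+* k} {G : Type*} [Field G] [Algebra k G]

theorem Frame.rho_zero (Fr : Frame X) : Fr.ρ 0 = 0 :=
  Nat.le_zero.mp (Fr.min 0 1 0 (X.one_mem_L 0) one_ne_zero (by simp) (by simp))

theorem Frame.wt_add_le {S : Type*} [CommRing S] (Fr : Frame X) (p q : Fin (X.c + 1) → S[X]) :
    Fr.wt (p + q) ≤ max (Fr.wt p) (Fr.wt q) :=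
  Fr.wt_le_iff.mpr fun i hi => by
    have hd := natDegree_add_le (p i) (q i)
    rcases eq_or_ne (p i) 0 with hp | hp
    · rw [Pi.add_apply, hp, zero_add] at hi ⊢
      exact (Fr.le_wt hi).trans (le_max_right _ _)
    rcases eq_or_ne (q i) 0 with hq | hq
    · rw [Pi.add_apply, hq, add_zero] at hi ⊢
      exact (Fr.le_wt hi).trans (le_max_left _ _)
    have := Fr.le_wt hp
    have := Fr.le_wt hq
    rcases le_max_iff.mp hd with h | h <;>
      · have := Nat.mul_le_mul_left (X.c + 1) h
        rw [Pi.add_apply]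
        omega

theorem Frame.wt_neg {S : Type*} [CommRing S] (Fr : Frame X) (p : Fin (X.c + 1) → S[X]) :
    Fr.wt (-p) = Fr.wt p :=
  Finset.sup_congr rfl fun i _ => by simp

/-- The number of monomials of weight at most `n` in a class. -/
def Frame.cnt (Fr : Frame X) (n : ℕ) (i : Fin (X.c + 1)) : ℕ :=
  if Fr.ρ i ≤ n then (n - Fr.ρ i) / (X.c + 1) + 1 else 0

/-- The total number of monomials of weight at most `n`. -/
def Frame.count (Fr : Frame X) (n : ℕ) : ℕ := ∑ i, Fr.cnt n i

theorem Frame.wt_le_iff_degreeLT {S : Type*} [CommRing S] (Fr : Frame X)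
    {p : Fin (X.c + 1) → S[X]} {n : ℕ} :
    Fr.wt p ≤ n ↔ ∀ i, p i ∈ degreeLT S (Fr.cnt n i) := by
  rw [Fr.wt_le_iff]
  refine forall_congr' fun i => ?_
  rw [mem_degreeLT]
  rcases eq_or_ne (p i) 0 with h | h
  · simp [h]
  rw [degree_eq_natDegree h, Nat.cast_lt, Frame.cnt]
  split_ifs with hi
  · rw [Nat.lt_succ_iff, Nat.le_div_iff_mul_le (show 0 < X.c + 1 from Nat.succ_pos _), mul_comm]
    exact ⟨fun h' => by have := h' h; omega, fun h' _ => by omega⟩
  · exact ⟨fun h' => by have := h' h; omega, fun h' => absurd h' (Nat.not_lt_zero _)⟩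

/-- Tuples of weight at most `n`. -/
def Frame.tuplesLE (Fr : Frame X) (S : Type*) [CommRing S] (n : ℕ) :
    Submodule S (Fin (X.c + 1) → S[X]) :=
  Submodule.pi Set.univ fun i => degreeLT S (Fr.cnt n i)

theorem Frame.mem_tuplesLE {S : Type*} [CommRing S] (Fr : Frame X) {n : ℕ}
    {p : Fin (X.c + 1) → S[X]} : p ∈ Fr.tuplesLE S n ↔ Fr.wt p ≤ n := by
  rw [Fr.wt_le_iff_degreeLT, Frame.tuplesLE, Submodule.mem_pi]
  simp

theorem Frame.finrank_tuplesLE {S : Type*} [Field S] (Fr : Frame X) (n : ℕ) :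
    Module.finrank S (Fr.tuplesLE S n) = Fr.count n := by
  have e : Fr.tuplesLE S n ≃ₗ[S] Π i, degreeLT S (Fr.cnt n i) :=
    { toFun := fun p i => ⟨p.1 i, (Fr.wt_le_iff_degreeLT.mp (Fr.mem_tuplesLE.mp p.2)) i⟩
      map_add' := fun _ _ => rfl
      map_smul' := fun _ _ => rfl
      invFun := fun q => ⟨fun i => (q i).1,
        Fr.mem_tuplesLE.mpr (Fr.wt_le_iff_degreeLT.mpr fun i => (q i).2)⟩
      left_inv := fun _ => rfl
      right_inv := fun _ => rfl }
  haveI : ∀ i, Module.Finite S (degreeLT S (Fr.cnt n i)) := fun i =>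
    Module.Finite.equiv (degreeLTEquiv S (Fr.cnt n i)).symm
  rw [e.finrank_eq, Module.finrank_pi_fintype, Frame.count]
  exact Finset.sum_congr rfl fun i _ => by
    rw [(degreeLTEquiv S (Fr.cnt n i)).finrank_eq, Module.finrank_fin_fun]

theorem Frame.finrank_L (Fr : Frame X) (n : ℕ) : Module.finrank K (X.L n) = Fr.count n := by
  have e : (Fr.tuplesLE K n).map Fr.comb = X.L n := le_antisymm
    (Submodule.map_le_iff_le_comap.mpr fun p hp => Fr.comb_mem_L (Fr.mem_tuplesLE.mp hp))
    fun a ha => by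
      obtain ⟨p, rfl, hp⟩ := Fr.exists_comb ha
      exact Submodule.mem_map_of_mem (Fr.mem_tuplesLE.mpr hp)
  rw [← e, ← (Submodule.equivMapOfInjective _ Fr.comb_injective _).finrank_eq, Fr.finrank_tuplesLE]

/-- The inclusion of the integral constants. -/
def IntData.cst (D : IntData Fr V) : V →+* D.ring :=
  ((algebraMap K F).comp V.subtype).codRestrict D.ring D.const_mem

/-- The coordinate, in the integral ring. -/
def IntData.fEl (D : IntData Fr V) : D.ring := D.el fun i => Polynomial.X * D.one i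

/-- The basis functions, in the integral ring. -/
def IntData.bEl (D : IntData Fr V) (i : Fin (X.c + 1)) : D.ring := D.el (Pi.single i 1)

theorem IntData.coe_fEl (D : IntData Fr V) : (D.fEl : F) = X.f := by
  show ∑ i, aeval X.f ((Polynomial.X * D.one i).map V.subtype) * Fr.b i = _
  simp_rw [Polynomial.map_mul, Polynomial.map_X, map_mul, aeval_X, mul_assoc, ← Finset.mul_sum]
  exact (congrArg (X.f * ·) D.one_eq).trans (mul_one _)

theorem IntData.coe_bEl (D : IntData Fr V) (i : Fin (X.c + 1)) : (D.bEl i : F) = Fr.b i := by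
  show Fr.comb _ = _
  rw [show (fun j => ((Pi.single i 1 : Fin (X.c + 1) → V[X]) j).map V.subtype) = Pi.single i 1 from
    funext fun j => by rcases eq_or_ne j i with rfl | h <;> simp [*], Fr.comb_single, map_one, one_mul]

theorem IntData.coe_eval₂ (D : IntData Fr V) (q : V[X]) :
    ((q.eval₂ D.cst D.fEl : D.ring) : F) = aeval X.f (q.map V.subtype) := by
  show D.ring.subtype _ = _
  rw [hom_eval₂, aeval_def, eval₂_map]
  exact congrArg (fun x => eval₂ _ x q) D.coe_fEl

theorem IntData.el_eq_sum (D : IntData Fr V) (p : Fin (X.c + 1) → V[X]) :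
    D.el p = ∑ i, (p i).eval₂ D.cst D.fEl * D.bEl i := Subtype.ext (by
  show _ = D.ring.subtype _
  simp only [map_sum, map_mul, Subring.subtype_apply, D.coe_eval₂, D.coe_bEl]
  rfl)

section Red

variable (R : D.Red res G)

/-- The reduced coordinate. -/
def IntData.Red.fk : G := R.red D.fEl

/-- The reduced basis. -/
def IntData.Red.bk (i : Fin (X.c + 1)) : G := R.red (D.bEl i)

/-- A combination of the reduced basis. -/
def IntData.Red.combk : (Fin (X.c + 1) → k[X]) →ₗ[k] G where
  toFun p := ∑ i, aeval R.fk (p i) * R.bk i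
  map_add' p q := by simp [add_mul, Finset.sum_add_distrib]
  map_smul' a p := by simp [Finset.smul_sum]

/-- The reduced affine ring. -/
def IntData.Red.ringk : Subalgebra k G := Algebra.adjoin k (insert R.fk (Set.range R.bk))

theorem IntData.Red.red_cst (x : V) : R.red (D.cst x) = algebraMap k G (res x) :=
  R.red_const x _

theorem IntData.Red.red_el (p : Fin (X.c + 1) → V[X]) :
    R.red (D.el p) = R.combk fun i => (p i).map res := by
  show _ = ∑ i, aeval R.fk ((p i).map res) * R.bk i
  rw [D.el_eq_sum, map_sum]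
  refine Finset.sum_congr rfl fun i _ => ?_
  rw [map_mul, hom_eval₂, aeval_def, eval₂_map]
  exact congrArg (· * R.bk i) (congrArg (fun g => eval₂ g R.fk (p i)) (RingHom.ext R.red_cst))

theorem IntData.Red.red_eq_combk (a : D.ring) : R.red a = R.combk (D.redT res a) := by
  obtain ⟨p, rfl⟩ := D.exists_el a
  rw [R.red_el, D.redT_el]

variable (hsurj : Function.Surjective res)
  (hker : ∀ x : V, res x = 0 ↔ x ∈ IsLocalRing.maximalIdeal V)

include hsurj in
theorem IntData.Red.combk_injective : Function.Injective R.combk := fun p q h => by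
  obtain ⟨P, hP, -, -⟩ := exists_lift_tuple (Fr := Fr) hsurj (p - q)
  have h0 : R.red (D.el P) = 0 := by rw [R.red_el, hP, map_sub, h, sub_self]
  rw [R.red_eq_zero, D.redT_el, hP] at h0
  exact sub_eq_zero.mp h0

include hsurj in
theorem IntData.Red.combk_tableMul (p q : Fin (X.c + 1) → k[X]) :
    R.combk (tableMul (D.mBar res) p q) = R.combk p * R.combk q := by
  obtain ⟨P, rfl, -, -⟩ := exists_lift_tuple (Fr := Fr) hsurj p
  obtain ⟨Q, rfl, -, -⟩ := exists_lift_tuple (Fr := Fr) hsurj q
  rw [← map_res_tableMul, ← R.red_el, ← R.red_el, ← R.red_el, D.el_mul, map_mul]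

/-- The reduced coefficients of one. -/
def IntData.oneBar (D : IntData Fr V) (res : V →+* k) (i : Fin (X.c + 1)) : k[X] := (D.one i).map res

theorem IntData.Red.combk_one : R.combk (D.oneBar res) = 1 := by
  rw [show D.oneBar res = fun i => (D.one i).map res from rfl, ← R.red_el, D.el_one, map_one]

include R in
theorem IntData.Red.oneBar_ne_zero : D.oneBar res ≠ 0 := fun h =>
  one_ne_zero (α := G) (by rw [← R.combk_one, h, map_zero])

theorem IntData.Red.combk_smul_one (q : k[X]) :
    R.combk (fun i => q * D.oneBar res i) = aeval R.fk q := by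
  show ∑ i, aeval R.fk (q * D.oneBar res i) * R.bk i = _
  simp_rw [map_mul, mul_assoc, ← Finset.mul_sum]
  exact (congrArg (aeval R.fk q * ·) R.combk_one).trans (mul_one _)

include hsurj in
theorem IntData.Red.transcendental : Transcendental k R.fk := by
  refine transcendental_iff.mpr fun q hq => ?_
  have h0 : (fun i => q * D.oneBar res i) = 0 := R.combk_injective hsurj (by
    rw [R.combk_smul_one, hq, map_zero])
  obtain ⟨i, hi⟩ := Function.ne_iff.mp R.oneBar_ne_zero
  exact (mul_eq_zero.mp (congrFun h0 i)).resolve_right hi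

theorem IntData.Red.combk_mem (p : Fin (X.c + 1) → k[X]) : R.combk p ∈ R.ringk :=
  show ∑ i, aeval R.fk (p i) * R.bk i ∈ Algebra.adjoin k (insert R.fk (Set.range R.bk)) from
  sum_mem fun i _ => mul_mem
    (Algebra.adjoin_mono (Set.singleton_subset_iff.mpr (Set.mem_insert _ _))
      (aeval_mem_adjoin_singleton k R.fk))
    (Algebra.subset_adjoin (Set.mem_insert_of_mem _ (Set.mem_range_self i)))

include hsurj in
theorem IntData.Red.exists_red_eq {y : G} (hy : y ∈ R.ringk) : ∃ a, R.red a = y := by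
  induction hy using Algebra.adjoin_induction with
  | mem x hx =>
    rcases hx with rfl | ⟨i, rfl⟩
    · exact ⟨D.fEl, rfl⟩
    · exact ⟨D.bEl i, rfl⟩
  | algebraMap c =>
    obtain ⟨x, rfl⟩ := hsurj c
    exact ⟨D.cst x, R.red_cst x⟩
  | add x y _ _ hx hy =>
    obtain ⟨a, rfl⟩ := hx
    obtain ⟨b, rfl⟩ := hy
    exact ⟨a + b, map_add _ _ _⟩
  | mul x y _ _ hx hy =>
    obtain ⟨a, rfl⟩ := hx
    obtain ⟨b, rfl⟩ := hy
    exact ⟨a * b, map_mul _ _ _⟩

include hsurj in
theorem IntData.Red.exists_combk {y : G} (hy : y ∈ R.ringk) : ∃ p, R.combk p = y := by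
  obtain ⟨a, rfl⟩ := R.exists_red_eq hsurj hy
  exact ⟨_, (R.red_eq_combk a).symm⟩

theorem IntData.Red.exists_frac (x : G) : ∃ p q, q ≠ 0 ∧ x * R.combk q = R.combk p := by
  obtain ⟨a, b, hb, rfl⟩ := R.frac x
  refine ⟨D.redT res a, D.redT res b, fun h => hb ((R.red_eq_zero b).mpr h), ?_⟩
  rw [← R.red_eq_combk, ← R.red_eq_combk, div_mul_cancel₀ _ hb]

include hsurj in
theorem IntData.Red.isFinOver : IsFinOver k R.fk ∧
    Module.finrank (IntermediateField.adjoin k {R.fk}) G ≤ X.c + 1 := by
  set L := IntermediateField.adjoin k {R.fk}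
  set W : Submodule L G := Submodule.span L (Set.range R.bk)
  have hcW : ∀ p, R.combk p ∈ W := fun p =>
    show ∑ i, aeval R.fk (p i) * R.bk i ∈ W from sum_mem fun i _ => by
    have := Submodule.smul_mem W (⟨aeval R.fk (p i), (IntermediateField.mem_adjoin_simple_iff _ _).mpr
      ⟨p i, 1, by simp⟩⟩ : L) (Submodule.subset_span (Set.mem_range_self i))
    rwa [Algebra.smul_def] at this
  haveI : Module.Finite L W := Module.Finite.span_of_finite L (Set.finite_range _)
  let A : Subalgebra L G := W.toSubalgebra (R.combk_one ▸ hcW _) fun x y hx hy => by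
    refine Submodule.span_induction ?_ ?_ ?_ ?_ hx
    · rintro _ ⟨i, rfl⟩
      refine Submodule.span_induction ?_ ?_ ?_ ?_ hy
      · rintro _ ⟨j, rfl⟩
        obtain ⟨p, hp⟩ := R.exists_combk hsurj (y := R.bk i * R.bk j) (mul_mem
          (Algebra.subset_adjoin (Set.mem_insert_of_mem _ (Set.mem_range_self i)))
          (Algebra.subset_adjoin (Set.mem_insert_of_mem _ (Set.mem_range_self j))))
        rw [← hp]; exact hcW p
      · rw [mul_zero]; exact zero_mem _
      · exact fun a b _ _ ha hb => by rw [mul_add]; exact add_mem ha hb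
      · exact fun l a _ ha => by rw [mul_smul_comm]; exact Submodule.smul_mem _ l ha
    · rw [zero_mul]; exact zero_mem _
    · exact fun a b _ _ ha hb => by rw [add_mul]; exact add_mem ha hb
    · exact fun l a _ ha => by rw [smul_mul_assoc]; exact Submodule.smul_mem _ l ha
  haveI : Module.Finite L A := ‹Module.Finite L W›
  haveI : Algebra.IsAlgebraic L A := Algebra.IsAlgebraic.of_finite _ _
  have htop : W = ⊤ := eq_top_iff.mpr fun x _ => by
    obtain ⟨p, q, hq, hx⟩ := R.exists_frac x
    have hq0 : R.combk q ≠ 0 := fun h => hq (R.combk_injective hsurj (by rw [h, map_zero]))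
    rw [show x = R.combk p * (R.combk q)⁻¹ by rw [← hx, mul_inv_cancel_right₀ hq0]]
    exact A.mul_mem (hcW p) (A.inv_mem_of_algebraic (x := ⟨_, hcW q⟩)
      ((isAlgebraic_algHom_iff A.val Subtype.val_injective).mpr
        (Algebra.IsAlgebraic.isAlgebraic (⟨_, hcW q⟩ : A))))
  have hle : Module.finrank L G ≤ X.c + 1 := by
    rw [← finrank_top L G, ← htop]
    exact (finrank_range_le_card (R := L) R.bk).trans (Fintype.card_fin _).le
  refine ⟨⟨R.transcendental hsurj, ?_⟩, hle⟩
  exact Module.Finite.equiv ((LinearEquiv.ofEq _ _ htop).trans Submodule.topEquiv)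

include hsurj hker in
/-- The place at infinity. -/
theorem IntData.Red.exists_inf :
    ∃ v : Place k G, ∀ p, p ≠ 0 → v.ord (R.combk p) = -(Fr.wt p : ℤ) := by
  have hwt := fun p q hp hq => (D.tableMul_mBar res hsurj hker (p := p) (q := q) hp hq)
  have hne : ∀ {p}, p ≠ 0 → R.combk p ≠ 0 := fun hp h => hp (R.combk_injective hsurj (by
    rw [h, map_zero]))
  have hwtle : ∀ p q, Fr.wt (tableMul (D.mBar res) p q) ≤ Fr.wt p + Fr.wt q := fun p q => by
    rcases eq_or_ne p 0 with rfl | hp
    · refine Fr.wt_le_iff.mpr fun i hi => absurd ?_ hi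
      simp [tableMul]
    rcases eq_or_ne q 0 with rfl | hq
    · refine Fr.wt_le_iff.mpr fun i hi => absurd ?_ hi
      simp [tableMul]
    exact (hwt p q hp hq).2.le
  have hone : Fr.wt (D.oneBar res) = 0 := by
    have h := hwt _ _ R.oneBar_ne_zero R.oneBar_ne_zero
    rw [show tableMul (D.mBar res) (D.oneBar res) (D.oneBar res) = D.oneBar res from
      R.combk_injective hsurj (by rw [R.combk_tableMul hsurj, R.combk_one, one_mul])] at h
    omega
  let O : ValuationSubring G :=
    { carrier := {x | ∃ p q, q ≠ 0 ∧ x * R.combk q = R.combk p ∧ Fr.wt p ≤ Fr.wt q}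
      mul_mem' := by
        rintro x y ⟨p, q, hq, hx, h⟩ ⟨p', q', hq', hy, h'⟩
        refine ⟨tableMul (D.mBar res) p p', tableMul (D.mBar res) q q', (hwt q q' hq hq').1, ?_,
          (hwtle p p').trans ((Nat.add_le_add h h').trans_eq (hwt q q' hq hq').2.symm)⟩
        rw [R.combk_tableMul hsurj, R.combk_tableMul hsurj, ← hx, ← hy]
        ring
      one_mem' := ⟨D.oneBar res, D.oneBar res, R.oneBar_ne_zero, one_mul _, le_rfl⟩
      add_mem' := by
        rintro x y ⟨p, q, hq, hx, h⟩ ⟨p', q', hq', hy, h'⟩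
        refine ⟨tableMul (D.mBar res) p q' + tableMul (D.mBar res) p' q,
          tableMul (D.mBar res) q q', (hwt q q' hq hq').1, ?_, ?_⟩
        · rw [map_add, R.combk_tableMul hsurj, R.combk_tableMul hsurj, R.combk_tableMul hsurj,
            ← hx, ← hy]
          ring
        · refine (Fr.wt_add_le _ _).trans (max_le ((hwtle p q').trans ?_) ((hwtle p' q).trans ?_)) <;>
            · rw [(hwt q q' hq hq').2]; omega
      zero_mem' := ⟨0, D.oneBar res, R.oneBar_ne_zero, by rw [zero_mul, map_zero],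
        by simp [Frame.wt]⟩
      neg_mem' := by
        rintro x ⟨p, q, hq, hx, h⟩
        exact ⟨-p, q, hq, by rw [map_neg, ← hx, neg_mul], by rwa [Fr.wt_neg]⟩
      mem_or_inv_mem' := fun x => by
        obtain ⟨p, q, hq, hx⟩ := R.exists_frac x
        rcases le_total (Fr.wt p) (Fr.wt q) with h | h
        · exact Or.inl ⟨p, q, hq, hx, h⟩
        rcases eq_or_ne p 0 with rfl | hp
        · exact Or.inl ⟨0, q, hq, hx, by simp [Frame.wt]⟩
        refine Or.inr ⟨q, p, hp, ?_, h⟩
        have hx0 : x ≠ 0 := fun e => hne hp (by rw [← hx, e, zero_mul])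
        rw [← hx, inv_mul_cancel_left₀ hx0] }
  choose Pf Qf hQf hPQf using R.exists_frac
  set w : G → ℤ := fun x => (Fr.wt (Qf x) : ℤ) - Fr.wt (Pf x) with hwdef
  have hw : ∀ {x : G} {p q}, p ≠ 0 → q ≠ 0 → x * R.combk q = R.combk p →
      w x = (Fr.wt q : ℤ) - Fr.wt p := by
    intro x p q hp hq hx
    obtain ⟨p', q', hq', hx', hwx⟩ : ∃ p' q', q' ≠ 0 ∧ x * R.combk q' = R.combk p' ∧
        w x = (Fr.wt q' : ℤ) - Fr.wt p' := ⟨Pf x, Qf x, hQf x, hPQf x, rfl⟩
    rw [hwx]
    have hx0 : x ≠ 0 := fun e => hne hp (by rw [← hx, e, zero_mul])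
    have hp' : p' ≠ 0 := fun e => mul_ne_zero hx0 (hne hq') (by rw [hx', e, map_zero])
    have e : tableMul (D.mBar res) p q' = tableMul (D.mBar res) p' q := R.combk_injective hsurj (by
      rw [R.combk_tableMul hsurj, R.combk_tableMul hsurj, ← hx, ← hx']; ring)
    have h1 := (hwt p q' hp hq').2
    rw [e, (hwt p' q hp' hq).2] at h1
    omega
  have hOmem : ∀ {x : G}, x ≠ 0 → (x ∈ O ↔ 0 ≤ w x) := by
    intro x hx0
    constructor
    · rintro ⟨p, q, hq, hx, h⟩
      have hp : p ≠ 0 := fun e => mul_ne_zero hx0 (hne hq) (by rw [hx, e, map_zero])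
      rw [hw hp hq hx]; omega
    · intro h
      obtain ⟨p, q, hq, hx⟩ := R.exists_frac x
      have hp : p ≠ 0 := fun e => mul_ne_zero hx0 (hne hq) (by rw [hx, e, map_zero])
      rw [hw hp hq hx] at h
      exact ⟨p, q, hq, hx, by omega⟩
  -- an element of valuation one
  set l : Fin (X.c + 1) := Fin.last X.c
  obtain ⟨j, hj⟩ : X.c + 1 ∣ Fr.ρ l + 1 := by
    refine Nat.dvd_of_mod_eq_zero ?_
    rw [Nat.add_mod, Fr.ρ_mod, show ((l : Fin (X.c + 1)) : ℕ) = X.c from rfl, Nat.add_mod_mod,
      Nat.mod_self]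
  have hp1 : (Pi.single l 1 : Fin (X.c + 1) → k[X]) ≠ 0 := by simp
  have hq1 : (Pi.single (0 : Fin (X.c + 1)) (Polynomial.X ^ j) : Fin (X.c + 1) → k[X]) ≠ 0 := by simp
  set π := R.combk (Pi.single l 1) / R.combk (Pi.single 0 (Polynomial.X ^ j))
  have hπ : π ≠ 0 := div_ne_zero (hne hp1) (hne hq1)
  have hwπ : w π = 1 := by
    rw [hw hp1 hq1 (div_mul_cancel₀ _ (hne hq1)), (Fr.wt_single one_ne_zero).1,
      (Fr.wt_single (pow_ne_zero j Polynomial.X_ne_zero)).1, natDegree_one, natDegree_X_pow,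
      Fr.rho_zero]
    push_cast
    have : ((Fr.ρ l : ℤ) + 1) = ((X.c : ℤ) + 1) * j := by exact_mod_cast hj
    linarith
  have hmul : ∀ {x y : G}, x ≠ 0 → y ≠ 0 → w (x * y) = w x + w y := by
    intro x y hx0 hy0
    obtain ⟨p, q, hq, hx⟩ := R.exists_frac x
    obtain ⟨p', q', hq', hy⟩ := R.exists_frac y
    have hp : p ≠ 0 := fun e => mul_ne_zero hx0 (hne hq) (by rw [hx, e, map_zero])
    have hp' : p' ≠ 0 := fun e => mul_ne_zero hy0 (hne hq') (by rw [hy, e, map_zero])
    rw [hw (hwt p p' hp hp').1 (hwt q q' hq hq').1 (by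
      rw [R.combk_tableMul hsurj, R.combk_tableMul hsurj, ← hx, ← hy]; ring), hw hp hq hx,
      hw hp' hq' hy, (hwt p p' hp hp').2, (hwt q q' hq hq').2]
    push_cast
    ring
  obtain ⟨v, hv⟩ := exists_place_valuationSubring (R.isFinOver hsurj).1 (A := O) (fun c => by
    refine ⟨fun i => C c * D.oneBar res i, D.oneBar res, R.oneBar_ne_zero, ?_, ?_⟩
    · rw [R.combk_one, mul_one, R.combk_smul_one, aeval_C]
    · refine Fr.wt_le_iff.mpr fun i hi => ?_
      refine le_trans (Nat.add_le_add_left (Nat.mul_le_mul_left _ (natDegree_C_mul_le _ _)) _)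
        (Fr.le_wt fun h => hi (by simp [h]))) fun htop => by
    have := (hOmem (inv_ne_zero hπ)).mp (htop ▸ ValuationSubring.mem_top _)
    have h1 := hmul hπ (inv_ne_zero hπ)
    rw [mul_inv_cancel₀ hπ, hwπ, hw R.oneBar_ne_zero R.oneBar_ne_zero (one_mul _)] at h1
    omega
  refine ⟨v, fun p hp => ?_⟩
  rw [ord_eq_of v w hmul (fun hx => by rw [hv]; exact hOmem hx) ⟨π, hπ, hwπ⟩ (hne hp),
    hw hp R.oneBar_ne_zero (by rw [R.combk_one, mul_one]), hone]
  simp

theorem IntData.Red.bk_eq_combk (i : Fin (X.c + 1)) : R.bk i = R.combk (Pi.single i 1) := by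
  show _ = ∑ j, aeval R.fk ((Pi.single i 1 : Fin (X.c + 1) → k[X]) j) * R.bk j
  rw [Finset.sum_eq_single i (fun j _ hj => by rw [Pi.single_eq_of_ne hj, map_zero, zero_mul])
    (by simp), Pi.single_eq_same, map_one, one_mul]

theorem IntData.Red.fk_mul_bk (i : Fin (X.c + 1)) :
    R.fk * R.bk i = R.combk (Pi.single i Polynomial.X) := by
  show _ = ∑ j, aeval R.fk ((Pi.single i Polynomial.X : Fin (X.c + 1) → k[X]) j) * R.bk j
  rw [Finset.sum_eq_single i (fun j _ hj => by rw [Pi.single_eq_of_ne hj, map_zero, zero_mul])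
    (by simp), Pi.single_eq_same, aeval_X]

include hsurj hker in
/-- The place at infinity is the only pole of the coordinate; the other places contain the reduced
ring. -/
theorem IntData.Red.exists_inf_only :
    ∃ v : Place k G, (∀ p, p ≠ 0 → v.ord (R.combk p) = -(Fr.wt p : ℤ)) ∧
      v.ord R.fk = -((X.c : ℤ) + 1) ∧
      ∀ u : Place k G, u ≠ v → ∀ y ∈ R.ringk, y ∈ u.toValuationSubring := by
  obtain ⟨v, hv⟩ := R.exists_inf hsurj hker
  have hne : ∀ {p}, p ≠ 0 → R.combk p ≠ 0 := fun hp h => hp (R.combk_injective hsurj (by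
    rw [h, map_zero]))
  have hf0 : R.fk ≠ 0 := fun h => R.transcendental hsurj (h ▸ isAlgebraic_zero)
  have hf : v.ord R.fk = -((X.c : ℤ) + 1) := by
    have h := hv (Pi.single 0 Polynomial.X) (by simp)
    have hb : R.bk 0 ≠ 0 := by rw [R.bk_eq_combk]; exact hne (by simp)
    have hb1 := hv (Pi.single (0 : Fin (X.c + 1)) 1) (by simp)
    rw [← R.bk_eq_combk, (Fr.wt_single one_ne_zero).1, natDegree_one, Fr.rho_zero] at hb1
    rw [← R.fk_mul_bk, v.ord_mul hf0 hb, hb1, (Fr.wt_single Polynomial.X_ne_zero).1, natDegree_X,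
      Fr.rho_zero] at h
    push_cast at h
    linarith
  obtain ⟨hfin, hle⟩ := R.isFinOver hsurj
  haveI := hfin.finite
  refine ⟨v, hv, hf, fun u hu => ?_⟩
  have hfu : 0 ≤ u.ord R.fk := by
    by_contra hneg
    push Not at hneg
    have h := sum_neg_ord_le (x := R.fk) (S := {u, v}) fun w hw => by
      rcases Finset.mem_insert.mp hw with rfl | hw
      · exact hneg
      · rw [Finset.mem_singleton.mp hw, hf]; omega
    rw [Finset.sum_pair hu, hf] at h
    omega
  by_contra hcon
  push Not at hcon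
  obtain ⟨y, hy, hyu⟩ := hcon
  have hy0 : y ≠ 0 := fun e => hyu (e ▸ zero_mem _)
  rw [mem_iff_ord_nonneg _ hy0, not_le] at hyu
  set B := ∑ i, (u.ord (R.bk i)).natAbs with hB
  have hlow : ∀ p, R.combk p = 0 ∨ -((B : ℤ) + 1) < u.ord (R.combk p) := fun p => by
    show (∑ i, aeval R.fk (p i) * R.bk i = 0) ∨ _ < u.ord (∑ i, aeval R.fk (p i) * R.bk i)
    refine lt_ord_sum _ _ u fun i _ => ?_
    rcases eq_or_ne (aeval R.fk (p i) * R.bk i) 0 with h | h
    · exact Or.inl h
    refine Or.inr ?_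
    have hm : aeval R.fk (p i) ∈ u.toValuationSubring := by
      rw [aeval_eq_sum_range]
      refine sum_mem fun l _ => ?_
      rw [Algebra.smul_def]
      exact mul_mem (u.algebraMap_mem' _) (pow_mem ((mem_iff_ord_nonneg u hf0).mpr hfu) l)
    rw [u.ord_mul (left_ne_zero_of_mul h) (right_ne_zero_of_mul h)]
    have := ord_nonneg_of_mem' u hm
    have := Finset.single_le_sum (f := fun i => (u.ord (R.bk i)).natAbs) (fun _ _ => Nat.zero_le _)
      (Finset.mem_univ i)
    omega
  obtain ⟨p, hp⟩ := R.exists_combk hsurj (pow_mem hy (B + 1))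
  have := hlow p
  rw [hp] at this
  have h2 := this.resolve_left (pow_ne_zero _ hy0)
  rw [MCurve.ord_pow] at h2
  have : ((B + 1 : ℕ) : ℤ) * 1 ≤ ((B + 1 : ℕ) : ℤ) * -u.ord y :=
    mul_le_mul_of_nonneg_left (by omega) (Int.natCast_nonneg _)
  push_cast at h2 this
  linarith

include hsurj in
/-- For a normal reduced ring, the functions regular away from infinity are its elements. -/
theorem IntData.Red.mem_ringk [IsIntegrallyClosed R.ringk] {v : Place k G}
    (hvf : v.ord R.fk < 0) {x : G} (hx : ∀ u : Place k G, u ≠ v → x ∈ u.toValuationSubring) :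
    x ∈ R.ringk := by
  have hin : x ∈ (⨅ W : {W : ValuationSubring G // (R.ringk : Set G) ⊆ W.toSubring},
      W.1.toSubring) := by
    refine Subring.mem_iInf.mpr fun ⟨W, hW⟩ => ?_
    by_cases htop : W = ⊤
    · show x ∈ W
      rw [htop]; exact ValuationSubring.mem_top x
    obtain ⟨u, hu⟩ := exists_place_valuationSubring (R.isFinOver hsurj).1 (A := W)
      (fun c => hW (Subalgebra.algebraMap_mem _ c)) htop
    show x ∈ W
    rw [← hu]
    refine hx u fun e => ?_
    have hf0 : R.fk ≠ 0 := fun h => R.transcendental hsurj (h ▸ isAlgebraic_zero)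
    have := ord_nonneg_of_mem' u (f := R.fk) (hu ▸ hW (Algebra.subset_adjoin (Set.mem_insert _ _)))
    rw [e] at this
    omega
  rw [iInf_valuationSubring_superset] at hin
  haveI : IsFractionRing R.ringk G := IsFractionRing.of_field _ _ fun z => by
    obtain ⟨p, q, hq, hz⟩ := R.exists_frac z
    exact ⟨⟨_, R.combk_mem p⟩, ⟨_, R.combk_mem q⟩, eq_div_of_mul_eq
      (fun h => hq (R.combk_injective hsurj ((map_zero R.combk).symm ▸ h))) hz⟩
  obtain ⟨P, hP, hPx⟩ := hin
  have hle : Subring.closure (R.ringk : Set G) ≤ R.ringk.toSubring := Subring.closure_le.mpr le_rfl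
  have hint : IsIntegral R.ringk x := by
    refine ⟨P.map (Subring.inclusion hle), hP.map _, ?_⟩
    rw [eval₂_map]
    exact hPx
  obtain ⟨z, hz⟩ := IsIntegrallyClosed.isIntegral_iff.mp hint
  exact hz ▸ z.2

include hsurj hker in
/-- The spaces at infinity. -/
theorem IntData.Red.exists_spaces [IsIntegrallyClosed R.ringk] :
    ∃ v : Place k G, (∀ p, p ≠ 0 → v.ord (R.combk p) = -(Fr.wt p : ℤ)) ∧
      v.ord R.fk = -((X.c : ℤ) + 1) ∧ (∀ u : Place k G, u ≠ v → 0 ≤ u.ord R.fk) ∧
      ∀ (n : ℕ), riemannRochSpace (Finsupp.single v (n : ℤ)) = (Fr.tuplesLE k n).map R.combk := by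
  obtain ⟨v, hv, hf, hother⟩ := R.exists_inf_only hsurj hker
  refine ⟨v, hv, hf, fun u hu =>
    ord_nonneg_of_mem' u (hother u hu _ (Algebra.subset_adjoin (Set.mem_insert _ _))), fun n => ?_⟩
  refine le_antisymm (fun x hx => ?_) (Submodule.map_le_iff_le_comap.mpr fun p hp => ?_)
  · rcases eq_or_ne x 0 with rfl | hx0
    · exact zero_mem _
    have hxs := (mem_space_iff.mp hx).resolve_left hx0
    obtain ⟨p, rfl⟩ := R.exists_combk hsurj (R.mem_ringk hsurj (v := v) (by rw [hf]; omega)
      fun u hu => (mem_iff_ord_nonneg u hx0).mpr (by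
        have := hxs u; rwa [Finsupp.single_eq_of_ne hu, neg_zero] at this))
    refine Submodule.mem_map_of_mem (Fr.mem_tuplesLE.mpr ?_)
    have hp : p ≠ 0 := fun e => hx0 (by rw [e, map_zero])
    have := hxs v
    rw [Finsupp.single_eq_same, hv p hp] at this
    omega
  · show R.combk p ∈ riemannRochSpace _
    rcases eq_or_ne p 0 with rfl | hp0
    · rw [map_zero]; exact zero_mem _
    refine mem_space_iff.mpr (Or.inr fun u => ?_)
    rcases eq_or_ne u v with rfl | hu
    · rw [Finsupp.single_eq_same, hv p hp0]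
      have := Fr.mem_tuplesLE.mp hp
      omega
    · rw [Finsupp.single_eq_of_ne hu, neg_zero]
      exact ord_nonneg_of_mem' u (hother u hu _ (R.combk_mem p))

end Red

end Fermat.Agent.MCurve.T27
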