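/-
A coordinate with integral equations, and evaluation in the integral ring.
-/
import Fermat.Agent.MCurve.T27.Reduction.Special

set_option autoImplicit false
set_option linter.unusedSectionVars false

noncomputable section

namespace Fermat.Agent.MCurve.T27

open AlgebraicCurve RR MW Polynomial
open scoped Classical

universe u v

variable {K : Type u} {F : Type v} [Field K] [Field F] [Algebra K F] [IsAlgClosed K]
  [∀ v : Place K F, v.FiniteResidue] [HasPrincipalDivisors K F] [Nonempty (Place K F)]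
  {X : Setup K F} {Fr : Frame X} {V : ValuationSubring K}
  {k : Type*} [Field k] [IsAlgClosed k] {G : Type*} [Field G] [Algebra k G] {res : V →+* k}

/-- Evaluation of polynomials in the coordinate. -/
def IntData.evf (D : IntData Fr V) : V[X] →+* D.ring := eval₂RingHom D.cst D.fEl

/-- Evaluation of polynomials in two variables. -/
def IntData.evfw (D : IntData Fr V) (u : D.ring) (H : V[X][X]) : D.ring := H.eval₂ D.evf u

theorem IntData.coe_evf (D : IntData Fr V) (q : V[X]) :
    (D.evf q : F) = aeval X.f (q.map V.subtype) := D.coe_eval₂ q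

theorem IntData.coe_evfw (D : IntData Fr V) (u : D.ring) (H : V[X][X]) :
    (D.evfw u H : F) = ev2 X.f (u : F) (H.map (mapRingHom V.subtype)) := by
  show D.ring.subtype (eval₂ D.evf u H) = eval₂ _ _ (H.map _)
  rw [hom_eval₂, eval₂_map]
  exact congrArg (fun g => eval₂ g (u : F) H) (RingHom.ext fun q => D.coe_evf q)

theorem IntData.Red.red_evf {D : IntData Fr V} (R : D.Red res G) (q : V[X]) :
    R.red (D.evf q) = aeval R.fk (q.map res) := by
  show R.red (eval₂ D.cst D.fEl q) = _
  rw [hom_eval₂, aeval_def, eval₂_map]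
  exact congrArg (fun g => eval₂ g R.fk q) (RingHom.ext R.red_cst)

theorem IntData.Red.red_evfw {D : IntData Fr V} (R : D.Red res G) (u : D.ring) (H : V[X][X]) :
    R.red (D.evfw u H) = ev2 R.fk (R.red u) (H.map (mapRingHom res)) := by
  show R.red (eval₂ D.evf u H) = eval₂ _ _ (H.map _)
  rw [hom_eval₂, eval₂_map]
  exact congrArg (fun g => eval₂ g (R.red u) H) (RingHom.ext fun q => R.red_evf q)

theorem IntData.exists_of_over (D : IntData Fr V) {a : F} (h : Fr.Over V.toSubring a) :
    ∃ A : D.ring, (A : F) = a := by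
  obtain ⟨p, hp, rfl⟩ := h
  choose q hq using fun i => exists_map_eq_of_coeffIn (hp i)
  exact ⟨D.el q, congrArg Fr.comb (funext hq)⟩

theorem exists_map_eq_of_coeffIn₂ {H : K[X][X]} (h : CoeffIn₂ V.toSubring H) :
    ∃ H' : V[X][X], H'.map (mapRingHom V.subtype) = H :=
  (mem_lifts H).mp ((lifts_iff_coeff_lifts H).mpr fun n => exists_map_eq_of_coeffIn (h n))

/-- Integral equations for a coordinate. -/
structure CoData (D : IntData Fr V) (Co : Coordinate X) (res : V →+* k) where
  /-- The coordinate. -/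
  w : D.ring
  w_eq : (w : F) = Co.w
  /-- Its equation. -/
  P : V[X][X]
  P_eq : P.map (mapRingHom V.subtype) = Co.P
  /-- The bad values. -/
  Δ : V[X]
  Δ_eq : Δ.map V.subtype = Co.Δ
  lead_ne : res Δ.leadingCoeff ≠ 0
  sep : ∃ (M : ℕ) (A B : V[X][X]), A * P + B * derivative P = C (Δ ^ M)
  clear : ∀ i, ∃ (N : ℕ) (H : V[X][X]), D.evf (Δ ^ N) * D.bEl i = D.evfw w H

theorem Good.exists_coData {Co : Coordinate X} (hG : Good Fr Co V.toSubring) (D : IntData Fr V)
    (hker : ∀ x : V, res x = 0 ↔ x ∈ IsLocalRing.maximalIdeal V) :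
    Nonempty (CoData D Co res) := by
  obtain ⟨W, hW⟩ := D.exists_of_over hG.w_over
  obtain ⟨P, hP⟩ := exists_map_eq_of_coeffIn₂ hG.P_mem
  obtain ⟨Δ, hΔ⟩ := exists_map_eq_of_coeffIn hG.Δ_mem
  have hl : (Δ.leadingCoeff : K) = Co.Δ.leadingCoeff := by
    rw [← hΔ, leadingCoeff_map_of_injective V.subtype_injective]; rfl
  obtain ⟨M, A, B, hA, hB, e⟩ := hG.sep
  obtain ⟨A, rfl⟩ := exists_map_eq_of_coeffIn₂ hA
  obtain ⟨B, rfl⟩ := exists_map_eq_of_coeffIn₂ hB
  refine ⟨⟨W, hW, P, hP, Δ, hΔ, res_ne_zero_of_inv_mem res hker ?_ ?_, ⟨M, A, B, ?_⟩, fun i => ?_⟩⟩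
  · rw [hl]; exact leadingCoeff_ne_zero.mpr Co.Δ_ne
  · rw [hl]; exact hG.Δ_lead
  · refine Polynomial.map_injective (mapRingHom V.subtype)
      (Polynomial.map_injective _ V.subtype_injective) ?_
    rw [Polynomial.map_add, Polynomial.map_mul, Polynomial.map_mul, ← derivative_map, hP,
      Polynomial.map_C, coe_mapRingHom, Polynomial.map_pow, hΔ]
    exact e
  · obtain ⟨N, H, hH, e⟩ := hG.clear i
    obtain ⟨H, rfl⟩ := exists_map_eq_of_coeffIn₂ hH
    refine ⟨N, H, Subtype.ext ?_⟩
    rw [Subring.coe_mul, D.coe_evf, D.coe_bEl, D.coe_evfw, hW, Polynomial.map_pow, hΔ]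
    exact e

end Fermat.Agent.MCurve.T27
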