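/-
Normality of the reduced affine ring.
-/
import Fermat.Agent.MCurve.T27.Reduction.CoData
import Mathlib.RingTheory.LocalProperties.IntegrallyClosed
import Mathlib.RingTheory.DiscreteValuationRing.TFAE
import Mathlib.RingTheory.Jacobson.Ring

set_option autoImplicit false
set_option linter.unusedSectionVars false

noncomputable section

namespace Fermat.Agent.MCurve.T27

open AlgebraicCurve RR MW Polynomial
open scoped Classical

universe u v

/-- A ring whose maximal ideals are locally principal at points over an algebraically closed field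
is integrally closed. -/
theorem isIntegrallyClosed_of_locally_principal {k B : Type*} [Field k] [IsAlgClosed k]
    [CommRing B] [IsDomain B] [Algebra k B] [Algebra.FiniteType k B]
    (h : ∀ χ : B →ₐ[k] k, ∃ a, χ a = 0 ∧ ∀ y, χ y = 0 → ∃ s, χ s ≠ 0 ∧ ∃ z, s * y = a * z) :
    IsIntegrallyClosed B := by
  haveI : IsNoetherianRing B := Algebra.FiniteType.isNoetherianRing k B
  refine IsIntegrallyClosed.of_localization_maximal fun m _ hm => ?_
  letI : Field (B ⧸ m) := Ideal.Quotient.field m
  haveI : Algebra.FiniteType k (B ⧸ m) :=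
    Algebra.FiniteType.of_surjective (Ideal.Quotient.mkₐ k m) Ideal.Quotient.mk_surjective
  haveI : Module.Finite k (B ⧸ m) := finite_of_finite_type_of_isJacobsonRing k (B ⧸ m)
  haveI : Algebra.IsIntegral k (B ⧸ m) := Algebra.IsIntegral.of_finite k (B ⧸ m)
  let e : k ≃ₐ[k] B ⧸ m := AlgEquiv.ofBijective (Algebra.ofId k (B ⧸ m))
    IsAlgClosed.algebraMap_bijective_of_isIntegral
  let χ : B →ₐ[k] k := e.symm.toAlgHom.comp (Ideal.Quotient.mkₐ k m)
  have hχ : ∀ y, χ y = 0 ↔ y ∈ m := fun y => by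
    show e.symm (Ideal.Quotient.mk m y) = 0 ↔ _
    rw [map_eq_zero_iff _ e.symm.injective, Ideal.Quotient.eq_zero_iff_mem]
  obtain ⟨a, ha, hall⟩ := h χ
  set L := Localization.AtPrime m
  haveI : IsNoetherianRing L := IsLocalization.isNoetherianRing m.primeCompl L inferInstance
  haveI : IsDomain L := IsLocalization.isDomain_of_le_nonZeroDivisors (R := B) (M := m.primeCompl) (S := L) (Ideal.primeCompl_le_nonZeroDivisors m)
  have hp : (IsLocalRing.maximalIdeal L).IsPrincipal := by
    refine ⟨algebraMap B L a, le_antisymm ?_ ?_⟩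
    · rw [← Localization.AtPrime.map_eq_maximalIdeal, Ideal.map_le_iff_le_comap]
      intro y hy
      obtain ⟨s, hs, z, hz⟩ := hall y ((hχ y).mpr hy)
      have hu : IsUnit (algebraMap B L s) :=
        IsLocalization.map_units L (⟨s, fun hsm => hs ((hχ s).mpr hsm)⟩ : m.primeCompl)
      rw [Ideal.mem_comap, Ideal.submodule_span_eq, Ideal.mem_span_singleton]
      refine hu.dvd_mul_left.mp ?_
      rw [← map_mul, hz, map_mul]
      exact dvd_mul_right _ _
    · rw [Ideal.submodule_span_eq, Ideal.span_singleton_le_iff_mem,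
        ← Localization.AtPrime.map_eq_maximalIdeal]
      exact Ideal.mem_map_of_mem _ ((hχ a).mp ha)
  haveI : IsPrincipalIdealRing L :=
    ((tfae_of_isNoetherianRing_of_isLocalRing_of_isDomain (R := L)).out 0 4).mpr hp
  infer_instance

variable {K : Type u} {F : Type v} [Field K] [Field F] [Algebra K F] [IsAlgClosed K]
  [∀ v : Place K F, v.FiniteResidue] [HasPrincipalDivisors K F] [Nonempty (Place K F)]
  {X : Setup K F} {Fr : Frame X} {Co : Coordinate X} {V : ValuationSubring K} {D : IntData Fr V}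
  {k : Type*} [Field k] [IsAlgClosed k] {res : V →+* k} {G : Type*} [Field G] [Algebra k G]

theorem valAt_aeval_f (P : X.Pt) (q : K[X]) :
    valAt P.1 (aeval X.f q) = q.eval (valAt P.1 X.f) := by
  have hf : X.f ∈ P.1.toValuationSubring :=
    (mem_iff_ord_nonneg _ (Frame.f_ne_zero (X := X))).mpr (X.f_pole P.1 P.2)
  have hmem : ∀ q : K[X], aeval X.f q ∈ P.1.toValuationSubring := fun q => by
    rw [aeval_eq_sum_range]
    refine sum_mem fun l _ => ?_
    rw [Algebra.smul_def]
    exact mul_mem (P.1.algebraMap_mem' _) (pow_mem hf l)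
  induction q using Polynomial.induction_on with
  | C a => rw [aeval_C, eval_C, valAt_algebraMap]
  | add p q hp hq => rw [map_add, valAt_add (hmem p) (hmem q), hp, hq, eval_add]
  | monomial n a h =>
    rw [pow_succ, ← mul_assoc, map_mul, valAt_mul (hmem _) (by simpa using hf), h, aeval_X]
    simp

theorem valAt_el (P : X.Pt) (p : Fin (X.c + 1) → V[X]) :
    valAt P.1 (D.el p : F) =
      ∑ i, ((p i).map V.subtype).eval (valAt P.1 X.f) * valAt P.1 (Fr.b i) := by
  show valAt P.1 (∑ i, aeval X.f ((p i).map V.subtype) * Fr.b i) = _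
  have hf : X.f ∈ P.1.toValuationSubring :=
    (mem_iff_ord_nonneg _ (Frame.f_ne_zero (X := X))).mpr (X.f_pole P.1 P.2)
  have hmem : ∀ q : K[X], aeval X.f q ∈ P.1.toValuationSubring := fun q => by
    rw [aeval_eq_sum_range]
    refine sum_mem fun l _ => ?_
    rw [Algebra.smul_def]
    exact mul_mem (P.1.algebraMap_mem' _) (pow_mem hf l)
  rw [valAt_sum _ _ fun i _ => mul_mem (hmem _) (Setup.mem_ring (Fr.mem i) P.2)]
  exact Finset.sum_congr rfl fun i _ => by
    rw [valAt_mul (hmem _) (Setup.mem_ring (Fr.mem i) P.2), valAt_aeval_f]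

variable (R : D.Red res G)

theorem IntData.Red.fk_mem : R.fk ∈ R.ringk := Algebra.subset_adjoin (Set.mem_insert _ _)

theorem IntData.Red.bk_mem (i : Fin (X.c + 1)) : R.bk i ∈ R.ringk :=
  Algebra.subset_adjoin (Set.mem_insert_of_mem _ (Set.mem_range_self i))

theorem IntData.Red.red_mem (a : D.ring) : R.red a ∈ R.ringk := by
  rw [R.red_eq_combk]; exact R.combk_mem _

/-- Reduction into the reduced ring. -/
def IntData.Red.redB : D.ring →+* R.ringk := R.red.codRestrict R.ringk R.red_mem

theorem IntData.Red.redB_evfw (u : D.ring) (H : V[X][X]) :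
    R.redB (D.evfw u H) = ev2 (⟨R.fk, R.fk_mem⟩ : R.ringk) (R.redB u) (H.map (mapRingHom res)) := by
  refine Subtype.ext ((R.red_evfw u H).trans ?_)
  show eval₂ _ _ _ = R.ringk.val.toRingHom (eval₂ _ _ _)
  rw [hom_eval₂]
  refine congrArg (fun g => eval₂ g (R.red u) _) (RingHom.ext fun q => ?_)
  exact (aeval_algHom_apply R.ringk.val (⟨R.fk, R.fk_mem⟩ : R.ringk) q)

theorem IntData.Red.redB_evf (q : V[X]) :
    R.redB (D.evf q) = aeval (⟨R.fk, R.fk_mem⟩ : R.ringk) (q.map res) :=
  Subtype.ext ((R.red_evf q).trans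
    (aeval_algHom_apply R.ringk.val (⟨R.fk, R.fk_mem⟩ : R.ringk) (q.map res)))

/-- An ideal containing the generators minus their values contains every element minus its value. -/
theorem IntData.Red.sub_value_mem (χ : R.ringk →ₐ[k] k) (J : Ideal R.ringk)
    (hf : (⟨R.fk, R.fk_mem⟩ : R.ringk) - algebraMap k R.ringk (χ ⟨R.fk, R.fk_mem⟩) ∈ J)
    (hb : ∀ i, (⟨R.bk i, R.bk_mem i⟩ : R.ringk) -
      algebraMap k R.ringk (χ ⟨R.bk i, R.bk_mem i⟩) ∈ J) (y : R.ringk) :
    y - algebraMap k R.ringk (χ y) ∈ J := by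
  obtain ⟨y, hy⟩ := y
  induction hy using Algebra.adjoin_induction with
  | mem x hx =>
    rcases hx with rfl | ⟨i, rfl⟩
    · exact hf
    · exact hb i
  | algebraMap c =>
    have : (⟨algebraMap k G c, Subalgebra.algebraMap_mem _ c⟩ : R.ringk) = algebraMap k R.ringk c := rfl
    rw [this, AlgHom.commutes]
    simp
  | add x y hx' hy' hx hy =>
    have := add_mem hx hy
    rw [show (⟨x + y, add_mem hx' hy'⟩ : R.ringk) = ⟨x, hx'⟩ + ⟨y, hy'⟩ from rfl, map_add, map_add]
    convert this using 1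
    ring
  | mul x y hx' hy' hx hy =>
    rw [show (⟨x * y, mul_mem hx' hy'⟩ : R.ringk) = ⟨x, hx'⟩ * ⟨y, hy'⟩ from rfl, map_mul, map_mul]
    have := add_mem (J.mul_mem_right ⟨y, hy'⟩ hx)
      (J.mul_mem_left (algebraMap k R.ringk (χ ⟨x, hx'⟩)) hy)
    convert this using 1
    ring

variable (hsurj : Function.Surjective res)
  (hker : ∀ x : V, res x = 0 ↔ x ∈ IsLocalRing.maximalIdeal V)

include hker hsurj in
theorem IntData.Red.isIntegrallyClosed (hG : Good Fr Co V.toSubring) (E : CoData D Co res) :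
    IsIntegrallyClosed R.ringk := by
  haveI : Algebra.FiniteType k R.ringk := (Subalgebra.fg_iff_finiteType R.ringk).mp
    ⟨insert R.fk (Finset.univ.image R.bk), by simp [IntData.Red.ringk]⟩
  refine isIntegrallyClosed_of_locally_principal (k := k) fun χ => ?_
  set fB : R.ringk := ⟨R.fk, R.fk_mem⟩
  set c := χ fB with hc
  have hfB : χ (fB - algebraMap k R.ringk c) = 0 := by
    rw [map_sub, AlgHom.commutes, ← hc]; exact sub_self c
  have hbB : ∀ i, χ ((⟨R.bk i, R.bk_mem i⟩ : R.ringk) -
      algebraMap k R.ringk (χ ⟨R.bk i, R.bk_mem i⟩)) = 0 := fun i => by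
    rw [map_sub, AlgHom.commutes]; exact sub_self _
  have hfin : ∀ {a : R.ringk}, χ a = 0 → ∀ {J : Ideal R.ringk},
      (∀ y ∈ J, ∃ s, χ s ≠ 0 ∧ ∃ z, s * y = a * z) → (fB - algebraMap k R.ringk c) ∈ J →
      (∀ i, (⟨R.bk i, R.bk_mem i⟩ : R.ringk) - algebraMap k R.ringk (χ ⟨R.bk i, R.bk_mem i⟩) ∈ J) →
      ∃ a, χ a = 0 ∧ ∀ y, χ y = 0 → ∃ s, χ s ≠ 0 ∧ ∃ z, s * y = a * z := by
    intro a ha J hJ h1 h2
    exact ⟨a, ha, fun y hy => hJ y (by simpa [hy] using R.sub_value_mem χ J h1 h2 y)⟩
  -- the ideal of elements divisible by `a` near the point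
  let Jof : R.ringk → Ideal R.ringk := fun a =>
    { carrier := {y | ∃ s, χ s ≠ 0 ∧ ∃ z, s * y = a * z}
      add_mem' := by
        rintro x y ⟨s, hs, z, e⟩ ⟨s', hs', z', e'⟩
        exact ⟨s * s', by rw [map_mul]; exact mul_ne_zero hs hs', s' * z + s * z', by
          linear_combination s' * e + s * e'⟩
      zero_mem' := ⟨1, by simp, 0, by simp⟩
      smul_mem' := by
        rintro r y ⟨s, hs, z, e⟩
        exact ⟨s, hs, r * z, by rw [smul_eq_mul]; linear_combination r * e⟩ }
  have hJmax : ∀ {a}, χ a = 0 → ∀ y ∈ Jof a, χ y = 0 := by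
    rintro a ha y ⟨s, hs, z, e⟩
    have := congrArg χ e
    rw [map_mul, map_mul, ha, zero_mul] at this
    exact (mul_eq_zero.mp this).resolve_left hs
  by_cases hΔ : (E.Δ.map res).eval c ≠ 0
  · -- over a good value
    set Pc := (E.P.map (mapRingHom res)).map (evalRingHom c)
    set wB := R.redB E.w
    set w₀ := χ wB
    set J := Jof (fB - algebraMap k R.ringk c) with hJdef
    have hfJ : fB - algebraMap k R.ringk c ∈ J := ⟨1, by simp, 1, by ring⟩
    have hπ : ∀ H : k[X][X], Ideal.Quotient.mk J (ev2 fB wB H) =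
        eval₂ (algebraMap k (R.ringk ⧸ J)) (Ideal.Quotient.mk J wB) (H.map (evalRingHom c)) := by
      intro H
      show Ideal.Quotient.mk J (eval₂ _ wB H) = _
      rw [hom_eval₂, eval₂_map]
      refine congrArg (fun g => eval₂ g _ H) (RingHom.ext fun q => ?_)
      show Ideal.Quotient.mkₐ k J (aeval fB q) = algebraMap k _ (q.eval c)
      rw [← aeval_algHom_apply, ← Polynomial.aeval_algebraMap_apply_eq_algebraMap_eval]
      exact congrArg (fun x => aeval x _) ((Ideal.Quotient.mk_eq_mk_iff_sub_mem _ _).mpr hfJ)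
    have hroot : ev2 fB wB (E.P.map (mapRingHom res)) = 0 := by
      rw [← R.redB_evfw]
      rw [show D.evfw E.w E.P = 0 from Subtype.ext (by
        rw [D.coe_evfw, E.w_eq, E.P_eq, Co.root]; rfl), map_zero]
    have hχ : ∀ H : k[X][X], χ (ev2 fB wB H) = (H.map (evalRingHom c)).eval w₀ := by
      intro H
      show χ.toRingHom (eval₂ _ wB H) = _
      rw [hom_eval₂, eval_map]
      refine congrArg (fun g => eval₂ g _ H) (RingHom.ext fun q => ?_)
      show χ (aeval fB q) = q.eval c
      rw [← aeval_algHom_apply, Polynomial.coe_aeval_eq_eval]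
    obtain ⟨Q, hQ⟩ := dvd_iff_isRoot.mpr (show IsRoot Pc w₀ by
      rw [IsRoot.def, ← hχ, hroot, map_zero])
    have hQ0 : Q.eval w₀ ≠ 0 := fun h0 => by
      obtain ⟨M, A, B, e⟩ := E.sep
      have e' := congrArg (fun H => ((H.map (mapRingHom res)).map (evalRingHom c)).eval w₀) e
      simp only [Polynomial.map_add, Polynomial.map_mul, ← derivative_map, eval_add, eval_mul,
        Polynomial.map_C, coe_mapRingHom, coe_evalRingHom, eval_C, Polynomial.map_pow, eval_pow] at e'
      change _ * Pc.eval w₀ + _ * (derivative Pc).eval w₀ = _ at e'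
      rw [hQ, derivative_mul, eval_add, eval_mul, eval_mul, eval_mul] at e'
      simp [h0] at e'
      exact pow_ne_zero M hΔ e'.symm
    have hwJ : wB - algebraMap k R.ringk w₀ ∈ J := by
      have h1 : aeval wB Q * (wB - algebraMap k R.ringk w₀) ∈ J := by
        rw [← Ideal.Quotient.eq_zero_iff_mem]
        have := hπ (E.P.map (mapRingHom res))
        rw [hroot, map_zero] at this
        change (0 : R.ringk ⧸ J) = eval₂ _ _ Pc at this
        rw [hQ, eval₂_mul, eval₂_sub, eval₂_X, eval₂_C] at this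
        rw [map_mul, map_sub, mul_comm]
        refine Eq.trans ?_ this.symm
        congr 1
        exact (aeval_algHom_apply (Ideal.Quotient.mkₐ k J) wB Q).symm
      obtain ⟨s, hs, z, e⟩ := h1
      refine ⟨s * aeval wB Q, ?_, z, by rw [mul_assoc, e]⟩
      rw [map_mul, ← aeval_algHom_apply, Polynomial.coe_aeval_eq_eval]
      exact mul_ne_zero hs hQ0
    refine hfin hfB (J := J) (fun y hy => hy) hfJ fun i => ?_
    obtain ⟨N, H, hH⟩ := E.clear i
    have e := congrArg (fun x => Ideal.Quotient.mk J (R.redB x)) hH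
    simp only [map_mul, R.redB_evf, R.redB_evfw, hπ] at e
    have hw : Ideal.Quotient.mk J wB = algebraMap k _ w₀ :=
      (Ideal.Quotient.mk_eq_mk_iff_sub_mem _ _).mpr hwJ
    have hf' : Ideal.Quotient.mk J (aeval fB ((E.Δ ^ N).map res)) =
        algebraMap k _ ((E.Δ.map res).eval c ^ N) := by
      show Ideal.Quotient.mkₐ k J (aeval fB _) = _
      rw [← aeval_algHom_apply, Polynomial.map_pow, ← eval_pow,
        ← Polynomial.aeval_algebraMap_apply_eq_algebraMap_eval]
      exact congrArg (fun x => aeval x _) ((Ideal.Quotient.mk_eq_mk_iff_sub_mem _ _).mpr hfJ)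
    rw [hf'] at e
    replace e := e.trans (hπ _)
    rw [hw, eval₂_at_apply] at e
    set d := (E.Δ.map res).eval c ^ N
    have hd : d ≠ 0 := pow_ne_zero _ hΔ
    set bB : R.ringk := ⟨R.bk i, R.bk_mem i⟩
    change algebraMap k _ d * Ideal.Quotient.mk J bB = _ at e
    set e0 := ((H.map (mapRingHom res)).map (evalRingHom c)).eval w₀
    have hmem : bB - algebraMap k R.ringk (d⁻¹ * e0) ∈ J := by
      rw [← Ideal.Quotient.eq_zero_iff_mem, map_sub, sub_eq_zero]
      show _ = algebraMap k (R.ringk ⧸ J) (d⁻¹ * e0)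
      rw [map_mul, ← e, ← mul_assoc, ← map_mul, inv_mul_cancel₀ hd, map_one, one_mul]
    have hval := hJmax hfB _ hmem
    rw [map_sub, AlgHom.commutes, sub_eq_zero] at hval
    rw [hval]
    exact hmem
  · -- over a bad value
    push Not at hΔ
    have hsplit : E.Δ.map res = C (res E.Δ.leadingCoeff) *
        (Co.Δ.roots.attach.map fun r => Polynomial.X - C (res ⟨r.1,
          hG.root_mem r.1 (isRoot_of_mem_roots r.2)⟩)).prod := by
      have e : E.Δ = C E.Δ.leadingCoeff * (Co.Δ.roots.attach.map fun r =>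
          Polynomial.X - C (⟨r.1, hG.root_mem r.1 (isRoot_of_mem_roots r.2)⟩ : V)).prod := by
        refine Polynomial.map_injective V.subtype V.subtype_injective ?_
        rw [Polynomial.map_mul, Polynomial.map_C, Polynomial.map_multiset_prod, Multiset.map_map,
          ← leadingCoeff_map_of_injective V.subtype_injective, E.Δ_eq]
        conv_lhs => rw [(IsAlgClosed.splits Co.Δ).eq_prod_roots]
        refine congrArg (fun m => C Co.Δ.leadingCoeff * Multiset.prod m) ?_
        conv_lhs => rw [← Multiset.attach_map_val Co.Δ.roots]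
        rw [Multiset.map_map]
        exact Multiset.map_congr rfl fun r _ => by simp
      conv_lhs => rw [e]
      rw [Polynomial.map_mul, Polynomial.map_C, Polynomial.map_multiset_prod, Multiset.map_map]
      exact congrArg _ (congrArg _ (Multiset.map_congr rfl fun r _ => by simp))
    rw [hsplit, eval_mul, eval_C, mul_eq_zero, or_iff_right E.lead_ne, eval_multiset_prod,
      Multiset.prod_eq_zero_iff, Multiset.mem_map] at hΔ
    obtain ⟨_, hmem, hr0⟩ := hΔ
    obtain ⟨r, -, rfl⟩ := Multiset.mem_map.mp hmem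
    rw [eval_sub, eval_X, eval_C, sub_eq_zero] at hr0
    have hroot : Co.Δ.eval r.1 = 0 := isRoot_of_mem_roots r.2
    set cV : V := ⟨r.1, hG.root_mem r.1 hroot⟩
    set val : X.Pt → Fin (X.c + 1) → K := fun P i => valAt P.1 (Fr.b i)
    have hvalV : ∀ (P : ↥(fibreAt X r.1)) i, val P.1 i ∈ V := fun P i =>
      hG.val_mem r.1 hroot P.1 P.2 i
    obtain ⟨P, hP⟩ : ∃ P : ↥(fibreAt X r.1), ∀ i,
        χ ⟨R.bk i, R.bk_mem i⟩ = res ⟨val P.1 i, hvalV P i⟩ := by
      by_contra hne
      push Not at hne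
      choose e he using hne
      obtain ⟨q, hq, hqe⟩ := hG.prod r.1 hroot e
      obtain ⟨Q, hQ⟩ := D.exists_of_over hq
      have e1 : ∏ P, (D.bEl (e P) - D.cst ⟨val P.1 (e P), hvalV P (e P)⟩) ^ (X.c + 1) =
          (D.fEl - D.cst cV) * Q := Subtype.ext (by
        simp only [SubmonoidClass.coe_finsetProd, SubmonoidClass.coe_pow, Subring.coe_mul,
          AddSubgroupClass.coe_sub, D.coe_bEl, D.coe_fEl, hQ]
        exact hqe)
      have hcst : ∀ x : V, χ (R.redB (D.cst x)) = res x := fun x => by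
        rw [show R.redB (D.cst x) = algebraMap k R.ringk (res x) from Subtype.ext (R.red_cst x),
          AlgHom.commutes]
        rfl
      have e2 := congrArg (fun x => χ (R.redB x)) e1
      simp only [map_prod, map_pow, map_mul, map_sub, hcst] at e2
      change _ = (c - res cV) * _ at e2
      rw [hr0, sub_self, zero_mul, Finset.prod_eq_zero_iff] at e2
      obtain ⟨P, -, hPe⟩ := e2
      exact he P (sub_eq_zero.mp (pow_eq_zero_iff (Nat.succ_ne_zero _) |>.mp hPe))
    obtain ⟨a, s, hao, hso, ha0, hs0, hsi, ⟨qf, hqfo, hqf⟩, hqb⟩ := hG.unif r.1 hroot P.1 P.2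
    have hcomp : ∀ (A : D.ring), ∃ h : valAt P.1.1 (A : F) ∈ V,
        χ (R.redB A) = res ⟨valAt P.1.1 (A : F), h⟩ := by
      intro A
      obtain ⟨p, rfl⟩ := D.exists_el A
      have e : valAt P.1.1 (D.el p : F) =
          ((∑ i, (p i).eval cV * ⟨val P.1 i, hvalV P i⟩ : V) : K) := by
        rw [valAt_el, valAt_f_of_mem_fibreAt P.2]
        simp only [AddSubmonoidClass.coe_finsetSum, MulMemClass.coe_mul]
        refine Finset.sum_congr rfl fun i _ => congrArg (· * _) ?_
        rw [eval_map]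
        exact (hom_eval₂ (p i) (RingHom.id V) V.subtype cV).symm
      refine ⟨e ▸ Subtype.mem _, ?_⟩
      rw [show (⟨valAt P.1.1 (D.el p : F), e ▸ Subtype.mem _⟩ : V) =
        ∑ i, (p i).eval cV * ⟨val P.1 i, hvalV P i⟩ from Subtype.ext e, map_sum]
      rw [D.el_eq_sum, map_sum, map_sum]
      refine Finset.sum_congr rfl fun i _ => ?_
      rw [map_mul, map_mul, map_mul, ← hP i]
      refine congrArg (· * _) ?_
      show χ (R.redB (D.evf (p i))) = _
      rw [R.redB_evf, ← aeval_algHom_apply, Polynomial.coe_aeval_eq_eval, eval_map]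
      show eval₂ res c (p i) = res ((p i).eval cV)
      rw [hr0]
      exact eval₂_at_apply res cV
    obtain ⟨A, hA⟩ := D.exists_of_over hao
    obtain ⟨S, hS⟩ := D.exists_of_over hso
    have hAχ : χ (R.redB A) = 0 := by
      obtain ⟨h, e⟩ := hcomp A
      rw [e, show (⟨valAt P.1.1 (A : F), h⟩ : V) = 0 from Subtype.ext ((congrArg (valAt P.1.1) hA).trans ha0), map_zero]
    have hSχ : χ (R.redB S) ≠ 0 := by
      obtain ⟨h, e⟩ := hcomp S
      rw [e]
      exact res_ne_zero_of_inv_mem res hker (show valAt P.1.1 (S : F) ≠ 0 by rw [hS]; exact hs0)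
        (show (valAt P.1.1 (S : F))⁻¹ ∈ V by rw [hS]; exact hsi)
    have hstep : ∀ (y q : F) (Y : D.ring), (Y : F) = y → Fr.Over V.toSubring q → s * y = a * q →
        R.redB Y ∈ Jof (R.redB A) := by
      intro y q Y hY hq e
      obtain ⟨Q, hQ⟩ := D.exists_of_over hq
      refine ⟨R.redB S, hSχ, R.redB Q, ?_⟩
      rw [← map_mul, ← map_mul]
      exact congrArg _ (Subtype.ext (by rw [Subring.coe_mul, Subring.coe_mul, hS, hY, hA, hQ, e]))
    refine hfin hAχ (J := Jof (R.redB A)) (fun y hy => hy) ?_ fun i => ?_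
    · have := hstep _ qf (D.fEl - D.cst cV) (by rw [AddSubgroupClass.coe_sub, D.coe_fEl]; rfl) hqfo hqf
      rw [map_sub, show R.redB (D.cst cV) = algebraMap k R.ringk (res cV) from
        Subtype.ext (R.red_cst cV), ← hr0] at this
      exact this
    · obtain ⟨q, hq, e⟩ := hqb i
      have := hstep _ q (D.bEl i - D.cst ⟨val P.1 i, hvalV P i⟩)
        (by rw [AddSubgroupClass.coe_sub, D.coe_bEl]; rfl) hq e
      rw [map_sub, show R.redB (D.cst ⟨val P.1 i, hvalV P i⟩) =
        algebraMap k R.ringk (res ⟨val P.1 i, hvalV P i⟩) from Subtype.ext (R.red_cst _), ← hP i]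
        at this
      exact this

end Fermat.Agent.MCurve.T27
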