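/-
The reduction as a setup with coordinate, a good-reduction model of the curve.
-/
import Fermat.Agent.MCurve.T27.Reduction.Normal
import Fermat.Agent.MCurve.T27.Canonical

set_option autoImplicit false
set_option linter.unusedSectionVars false

noncomputable section

namespace Fermat.Agent.MCurve.T27

open AlgebraicCurve RR MW Polynomial
open scoped Classical

universe u v

variable {K : Type u} {F : Type v} [Field K] [Field F] [Algebra K F] [IsAlgClosed K]
  [∀ v : Place K F, v.FiniteResidue] [HasPrincipalDivisors K F] [Nonempty (Place K F)]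
  {X : Setup K F} {Fr : Frame X} {Co : Coordinate X} {V : ValuationSubring K} {D : IntData Fr V}
  {k : Type*} [Field k] [IsAlgClosed k] {res : V →+* k} {G : Type*} [Field G] [Algebra k G]

theorem Frame.wt_map_injective {S T : Type*} [CommRing S] [CommRing T] {φ : S →+* T}
    (hφ : Function.Injective φ) (p : Fin (X.c + 1) → S[X]) :
    Fr.wt (fun i => (p i).map φ) = Fr.wt p :=
  Finset.sup_congr rfl fun i _ => by
    simp [Polynomial.map_eq_zero_iff hφ, natDegree_map_eq_of_injective hφ]

theorem CoData.exists_clear (E : CoData D Co res) (a : D.ring) :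
    ∃ (N : ℕ) (H : V[X][X]), D.evf (E.Δ ^ N) * a = D.evfw E.w H := by
  obtain ⟨p, rfl⟩ := D.exists_el a
  choose N H hH using E.clear
  refine ⟨∑ i, N i, ∑ i, C (p i * E.Δ ^ (∑ j, N j - N i)) * H i, ?_⟩
  rw [D.el_eq_sum, Finset.mul_sum]
  show _ = eval₂ D.evf E.w _
  rw [eval₂_finsetSum]
  refine Finset.sum_congr rfl fun i _ => ?_
  rw [eval₂_mul, eval₂_C, map_mul,
    show eval₂ D.evf E.w (H i) = D.evf (E.Δ ^ N i) * D.bEl i from (hH i).symm,
    show (p i).eval₂ D.cst D.fEl = D.evf (p i) from rfl,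
    show D.evf (E.Δ ^ ∑ j, N j) = D.evf (E.Δ ^ (∑ j, N j - N i)) * D.evf (E.Δ ^ N i) by
      rw [← map_mul, ← pow_add, Nat.sub_add_cancel
        (Finset.single_le_sum (fun _ _ => Nat.zero_le _) (Finset.mem_univ i))]]
  ring

theorem IntData.exists_scale (D : IntData Fr V) {p : Fin (X.c + 1) → K[X]} (hp : p ≠ 0) :
    ∃ (x : K) (q : Fin (X.c + 1) → V[X]), (fun i => (q i).map V.subtype) = x • p ∧
      ∀ res : V →+* k, (fun i => (q i).map res) ≠ 0 := by
  set S : Finset (Fin (X.c + 1) × ℕ) :=
    (Finset.univ ×ˢ Finset.range (Finset.univ.sup (fun i => (p i).natDegree) + 1)).filter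
      fun il => (p il.1).coeff il.2 ≠ 0
  have hmemS : ∀ i l, (p i).coeff l ≠ 0 → (i, l) ∈ S := fun i l h =>
    Finset.mem_filter.mpr ⟨Finset.mem_product.mpr ⟨Finset.mem_univ _, Finset.mem_range.mpr
      (Nat.lt_succ_of_le ((le_natDegree_of_ne_zero h).trans
        (Finset.le_sup (f := fun i => (p i).natDegree) (Finset.mem_univ i))))⟩, h⟩
  obtain ⟨i, hi⟩ := Function.ne_iff.mp hp
  obtain ⟨⟨i₀, l₀⟩, h0, hmax⟩ := Finset.exists_max_image S
    (fun il => V.valuation ((p il.1).coeff il.2))
    ⟨(i, (p i).natDegree), hmemS _ _ (leadingCoeff_ne_zero.mpr hi)⟩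
  have hg : (p i₀).coeff l₀ ≠ 0 := (Finset.mem_filter.mp h0).2
  set x := ((p i₀).coeff l₀)⁻¹
  have hV : ∀ i, CoeffIn V.toSubring ((x • p) i) := fun i l => by
    rw [Pi.smul_apply, coeff_smul, smul_eq_mul]
    rcases eq_or_ne ((p i).coeff l) 0 with h | h
    · rw [h, mul_zero]; exact zero_mem _
    have := hmax (i, l) (hmemS i l h)
    show _ ∈ V
    rw [← V.valuation_le_one_iff, map_mul, map_inv₀, inv_mul_eq_div]
    exact (div_le_one₀ (zero_lt_iff.mpr ((Valuation.ne_zero_iff _).mpr hg))).mpr this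
  choose q hq using fun i => exists_map_eq_of_coeffIn (hV i)
  refine ⟨x, q, funext hq, fun res h => ?_⟩
  have h1 : (q i₀).coeff l₀ = 1 := Subtype.ext (by
    have := congrArg (fun r => Polynomial.coeff r l₀) (hq i₀)
    simp only [coeff_map, Pi.smul_apply, coeff_smul, smul_eq_mul] at this
    exact this.trans (inv_mul_cancel₀ hg))
  have := congrArg (fun r => Polynomial.coeff r l₀) (congrFun h i₀)
  simp [coeff_map, h1] at this

variable (R : D.Red res G) (hsurj : Function.Surjective res)
  (hker : ∀ x : V, res x = 0 ↔ x ∈ IsLocalRing.maximalIdeal V)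

include hsurj hker in
theorem IntData.Red.exists_model (hc : 2 * X.g ≤ X.c) (hG : Good Fr Co V.toSubring)
    (E : CoData D Co res) :
    ∃ (_ : ∀ v : Place k G, v.FiniteResidue) (_ : HasPrincipalDivisors k G)
      (_ : Nonempty (Place k G)) (Y : Setup k G) (Cy : Coordinate Y),
      Nonempty (Model X Co Y Cy) ∧ Y.f = R.fk ∧
        ∀ p, p ≠ 0 → Y.inf.ord (R.combk p) = -(Fr.wt p : ℤ) := by
  obtain ⟨hfin, -⟩ := R.isFinOver hsurj
  obtain ⟨hPD, hFR, hne⟩ := curve_props hfin
  haveI := hFR
  haveI := hPD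
  haveI := hne
  refine ⟨hFR, hPD, hne, ?_⟩
  haveI := R.isIntegrallyClosed hsurj hker hG E
  obtain ⟨v, hv, hvf, hpole, hsp⟩ := R.exists_spaces hsurj hker
  obtain ⟨Y', hY'⟩ := exists_setup hfin v
  have hinj := R.combk_injective hsurj
  have hcount : ∀ n : ℕ, Module.finrank k (riemannRochSpace (Finsupp.single v (n : ℤ))) =
      Fr.count n := fun n => by
    rw [hsp, ← (Submodule.equivMapOfInjective _ hinj _).finrank_eq, Fr.finrank_tuplesLE]
  have hg : Y'.g = X.g := by
    set n := max X.c Y'.c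
    have h1 := X.hR.eq (Finsupp.single X.inf (n : ℤ))
      (by rw [Divisor.degree_single, deg_one, Nat.cast_one, mul_one]; exact_mod_cast le_max_left _ _)
    have h2 := Y'.hR.eq (Finsupp.single v (n : ℤ))
      (by rw [Divisor.degree_single, deg_one, Nat.cast_one, mul_one]; exact_mod_cast le_max_right _ _)
    rw [show ell (Finsupp.single X.inf (n : ℤ)) = Fr.count n from Fr.finrank_L n,
      Divisor.degree_single, deg_one] at h1
    rw [show ell (Finsupp.single v (n : ℤ)) = Fr.count n from hcount n,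
      Divisor.degree_single, deg_one] at h2
    omega
  let Y : Setup k G :=
    ⟨v, X.g, X.c, ⟨fun D' => hg ▸ Y'.hR.le D', fun D' hD => by
      rw [← hg]; exact ell_eq_of_degree Y' (by rw [hg]; omega)⟩, X.hgc, R.fk, hfin, hpole, hvf⟩
  have hYL : ∀ (n : ℕ), Y.L n = (Fr.tuplesLE k n).map R.combk := hsp
  have hPm : E.P.Monic := Polynomial.monic_of_injective
    (Polynomial.map_injective _ V.subtype_injective) (by rw [E.P_eq]; exact Co.monic)
  have hPd : E.P.natDegree = X.c + 1 := by
    rw [← Co.natDegree_eq, ← E.P_eq, hPm.natDegree_map]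
  let Cy : Coordinate Y :=
    { w := R.red E.w
      P := E.P.map (mapRingHom res)
      Δ := E.Δ.map res
      w_mem := by
        refine ⟨Fr.wt (D.redT res E.w), ?_⟩
        rw [hYL, R.red_eq_combk]
        exact Submodule.mem_map_of_mem (Fr.mem_tuplesLE.mpr le_rfl)
      monic := hPm.map _
      natDegree_eq := (hPm.natDegree_map _).trans hPd
      root := by
        show ev2 R.fk (R.red E.w) _ = 0
        rw [← R.red_evfw, show D.evfw E.w E.P = 0 from Subtype.ext (by
          rw [D.coe_evfw, E.w_eq, E.P_eq, Co.root]; rfl), map_zero]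
      Δ_ne := fun h => E.lead_ne (by
        have := congrArg (fun q => Polynomial.coeff q E.Δ.natDegree) h
        simpa [coeff_map] using this)
      clear := fun n b hb => by
        rw [hYL] at hb
        obtain ⟨p, -, rfl⟩ := Submodule.mem_map.mp hb
        obtain ⟨P, rfl, -, -⟩ := exists_lift_tuple (Fr := Fr) hsurj p
        obtain ⟨N, H, e⟩ := E.exists_clear (D.el P)
        refine ⟨N, H.map (mapRingHom res), ?_⟩
        show aeval R.fk _ * _ = ev2 R.fk _ _
        rw [← R.red_el, ← R.red_evfw, ← e, map_mul, R.red_evf, Polynomial.map_pow]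
      sep := fun c hcΔ => by
        obtain ⟨M, A, B, e⟩ := E.sep
        have hd : (E.Δ.map res).eval c ^ M ≠ 0 := pow_ne_zero _ hcΔ
        refine ⟨C ((E.Δ.map res).eval c ^ M)⁻¹ * (A.map (mapRingHom res)).map (evalRingHom c),
          C ((E.Δ.map res).eval c ^ M)⁻¹ * (B.map (mapRingHom res)).map (evalRingHom c), ?_⟩
        rw [derivative_map, derivative_map, mul_assoc, mul_assoc, ← mul_add, ← Polynomial.map_mul,
          ← Polynomial.map_mul, ← Polynomial.map_mul, ← Polynomial.map_mul, ← Polynomial.map_add,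
          ← Polynomial.map_add, e, Polynomial.map_C, Polynomial.map_C, coe_mapRingHom,
          coe_evalRingHom, Polynomial.map_pow, eval_pow, ← map_mul, inv_mul_cancel₀ hd, map_one] }
  refine ⟨Y, Cy, ⟨{
    V := V
    res := res
    res_surjective := hsurj
    res_eq_zero_iff := hker
    A := D.ring
    const_mem := D.const_mem
    red := R.red
    red_const := fun x => R.red_const x _
    g_eq := rfl
    c_eq := rfl
    f_mem := D.coe_fEl ▸ D.fEl.2
    red_f := congrArg R.red (Subtype.ext D.coe_fEl.symm)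
    w_mem := E.w_eq ▸ E.w.2
    red_w := congrArg R.red (Subtype.ext E.w_eq.symm)
    P := E.P
    P_eq := E.P_eq
    P_res := rfl
    Δ := E.Δ
    Δ_eq := E.Δ_eq
    Δ_res := rfl
    mem_L := ?_
    red_L := ?_
    lift := ?_
    scale := ?_
    finrank_L := fun n => (hcount n).trans (Fr.finrank_L n).symm
    clear := fun a => ?_ }⟩, rfl, hv⟩
  · rintro a ⟨p, rfl⟩
    exact ⟨_, Fr.comb_mem_L le_rfl⟩
  · intro n a ha
    obtain ⟨p, rfl⟩ := D.exists_el a
    rw [R.red_el, hYL]
    refine Submodule.mem_map_of_mem (Fr.mem_tuplesLE.mpr ((Fr.wt_map_le res p).trans ?_))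
    rw [← Frame.wt_map_injective (Fr := Fr) V.subtype_injective p]
    exact Fr.comb_mem_iff.mp ha
  · intro n b hb
    rw [hYL] at hb
    obtain ⟨p, hp, rfl⟩ := Submodule.mem_map.mp hb
    obtain ⟨P, rfl, hw, -⟩ := exists_lift_tuple (Fr := Fr) hsurj p
    refine ⟨D.el P, Fr.comb_mem_L ?_, R.red_el P⟩
    rw [Frame.wt_map_injective (Fr := Fr) V.subtype_injective, hw]
    exact Fr.mem_tuplesLE.mp hp
  · intro n a ha ha0
    obtain ⟨p, rfl, -⟩ := Fr.exists_comb ha
    obtain ⟨x, q, hq, hres⟩ := D.exists_scale (k := k) (p := p) (fun h => ha0 (by rw [h, map_zero]))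
    have e : (D.el q : F) = x • Fr.comb p := by
      show Fr.comb _ = _
      rw [hq, map_smul]
    refine ⟨x, e ▸ (D.el q).2, fun h => hres res ?_⟩
    rw [show (⟨x • Fr.comb p, e ▸ (D.el q).2⟩ : D.ring) = D.el q from Subtype.ext e.symm,
      R.red_eq_zero, D.redT_el] at h
    exact h
  · obtain ⟨N, H, e⟩ := E.exists_clear a
    refine ⟨N, H, ?_⟩
    have e' := congrArg Subtype.val e
    rw [Subring.coe_mul, D.coe_evf, D.coe_evfw, E.w_eq, Polynomial.map_pow, E.Δ_eq] at e'
    exact e'

end Fermat.Agent.MCurve.T27
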