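/-
Frobenius data on the reduced curve.
-/
import Fermat.Agent.MCurve.T27.Reduction.ModelExists
import Mathlib.Algebra.CharP.Lemmas
import Mathlib.FieldTheory.IsAlgClosed.Basic

set_option autoImplicit false
set_option linter.unusedSectionVars false

noncomputable section

namespace Fermat.Agent.MCurve.T27

open AlgebraicCurve RR MW Polynomial
open scoped Classical

universe u v

variable {K : Type u} {F : Type v} [Field K] [Field F] [Algebra K F] [IsAlgClosed K]
  [∀ v : Place K F, v.FiniteResidue] [HasPrincipalDivisors K F] [Nonempty (Place K F)]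
  {X : Setup K F} {Fr : Frame X} {V : ValuationSubring K} {D : IntData Fr V}
  {k : Type*} [Field k] [IsAlgClosed k] {res : V →+* k} {G : Type*} [Field G] [Algebra k G]

theorem IntData.Red.exists_frob [∀ v : Place k G, v.FiniteResidue] [HasPrincipalDivisors k G]
    [Nonempty (Place k G)] (R : D.Red res G) (hsurj : Function.Surjective res)
    {Y : Setup k G} (hYf : Y.f = R.fk)
    (hYinf : ∀ p, p ≠ 0 → Y.inf.ord (R.combk p) = -(Fr.wt p : ℤ))
    {p e : ℕ} [hp : Fact p.Prime] [CharP k p] (he : 0 < e)
    (hm : ∀ i j l n, (D.mBar res i j l).coeff n ^ p ^ e = (D.mBar res i j l).coeff n)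
    (h1 : ∀ i n, (D.oneBar res i).coeff n ^ p ^ e = (D.oneBar res i).coeff n)
    (hper : ∀ a : k, ∃ r, 0 < r ∧ a ^ (p ^ e) ^ r = a) :
    Nonempty (Frob Y (p ^ e)) := by
  haveI := ExpChar.prime (R := k) hp.out
  set φ : k →+* k := iterateFrobenius k p e
  have hφ : ∀ a, φ a = a ^ p ^ e := fun a => iterateFrobenius_def p e a
  have hφs : Function.Surjective φ := fun a => by
    obtain ⟨b, hb⟩ := IsAlgClosed.exists_pow_nat_eq a (pow_pos hp.out.pos e)
    exact ⟨b, (hφ b).trans hb⟩
  have hinj := R.combk_injective hsurj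
  let mapφ : (Fin (X.c + 1) → k[X]) → (Fin (X.c + 1) → k[X]) := fun q i => (q i).map φ
  have hmul : ∀ q q', mapφ (tableMul (D.mBar res) q q') =
      tableMul (D.mBar res) (mapφ q) (mapφ q') := fun q q' => funext fun l => by
    show (tableMul _ q q' l).map φ = _
    rw [← coe_mapRingHom, map_tableMul]
    refine congrArg (fun m => tableMul m (mapφ q) (mapφ q') l)
      (funext fun i => funext fun j => funext fun l' => Polynomial.ext fun n => ?_)
    rw [coe_mapRingHom, coeff_map, hφ]
    exact hm i j l' n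
  have hone : mapφ (D.oneBar res) = D.oneBar res := funext fun i => Polynomial.ext fun n => by
    show ((D.oneBar res i).map φ).coeff n = _
    rw [coeff_map, hφ]
    exact h1 i n
  have hcoef : ∀ y : R.ringk, ∃ q, R.combk q = (y : G) := fun y => R.exists_combk hsurj y.2
  choose cf hcf using hcoef
  have hcf' : ∀ (y : R.ringk) q, R.combk q = (y : G) → cf y = q := fun y q h =>
    hinj ((hcf y).trans h.symm)
  let σ0 : R.ringk →+* G :=
    { toFun := fun y => R.combk (mapφ (cf y))
      map_one' := by
        show R.combk (mapφ (cf 1)) = 1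
        rw [hcf' 1 (D.oneBar res) R.combk_one, hone, R.combk_one]
      map_mul' := fun y y' => by
        show R.combk (mapφ (cf (y * y'))) = _
        rw [hcf' (y * y') (tableMul (D.mBar res) (cf y) (cf y'))
          (by rw [R.combk_tableMul hsurj, hcf, hcf]; rfl), hmul, R.combk_tableMul hsurj]
      map_zero' := by
        show R.combk (mapφ (cf 0)) = 0
        rw [hcf' 0 0 (map_zero _), show mapφ 0 = 0 from funext fun i => Polynomial.map_zero φ,
          map_zero]
      map_add' := fun y y' => by
        show R.combk (mapφ (cf (y + y'))) = _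
        rw [hcf' (y + y') (cf y + cf y') (by rw [map_add, hcf, hcf]; rfl),
          show mapφ (cf y + cf y') = mapφ (cf y) + mapφ (cf y') from
            funext fun i => Polynomial.map_add φ, map_add] }
  have hmz : ∀ q, mapφ q = 0 → q = 0 := fun q h => funext fun i =>
    (Polynomial.map_eq_zero_iff φ.injective).mp (congrFun h i)
  have hσ0 : Function.Injective σ0 := by
    rw [injective_iff_map_eq_zero]
    intro y hy
    have h0 := hmz _ (hinj (hy.trans (map_zero R.combk).symm))
    exact Subtype.ext (by rw [← hcf y, h0, map_zero]; rfl)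
  haveI : IsFractionRing R.ringk G := IsFractionRing.of_field _ _ fun z => by
    obtain ⟨q, q', hq', hz⟩ := R.exists_frac z
    exact ⟨⟨_, R.combk_mem q⟩, ⟨_, R.combk_mem q'⟩, eq_div_of_mul_eq
      (fun h => hq' (hinj ((map_zero R.combk).symm ▸ h))) hz⟩
  let σ : G →+* G := IsFractionRing.lift hσ0
  have hσ : ∀ q, σ (R.combk q) = R.combk (mapφ q) := fun q => by
    show IsFractionRing.lift hσ0 (algebraMap R.ringk G ⟨_, R.combk_mem q⟩) = _
    rw [IsFractionRing.lift_algebraMap]
    show R.combk (mapφ (cf ⟨_, R.combk_mem q⟩)) = _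
    rw [hcf' ⟨_, R.combk_mem q⟩ q rfl]
  have hσs : Function.Surjective σ := fun x => by
    obtain ⟨q, q', hq', hx⟩ := R.exists_frac x
    choose r hr using fun i => Polynomial.map_surjective φ hφs (q i)
    choose r' hr' using fun i => Polynomial.map_surjective φ hφs (q' i)
    refine ⟨R.combk r / R.combk r', ?_⟩
    rw [map_div₀, hσ, hσ, show mapφ r = q from funext hr, show mapφ r' = q' from funext hr', ← hx,
      mul_div_assoc, div_self (fun h => hq' (hinj (h.trans (map_zero _).symm))), mul_one]
  have hσc : ∀ a : k, σ (algebraMap k G a) = algebraMap k G (a ^ p ^ e) := fun a => by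
    rw [← aeval_C R.fk a, ← R.combk_smul_one, hσ,
      show (mapφ fun i => C a * D.oneBar res i) = fun i => C (a ^ p ^ e) * D.oneBar res i from
        funext fun i => by
          show (C a * D.oneBar res i).map φ = _
          rw [Polynomial.map_mul, Polynomial.map_C, hφ]
          exact congrArg _ (congrFun hone i),
      R.combk_smul_one, aeval_C]
  have hσf : σ R.fk = R.fk := by
    rw [← aeval_X (R := k) R.fk, ← R.combk_smul_one, hσ]
    refine congrArg _ (funext fun i => ?_)
    show (Polynomial.X * D.oneBar res i).map φ = _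
    rw [Polynomial.map_mul, Polynomial.map_X]
    exact congrArg _ (congrFun hone i)
  have hσb : ∀ i, σ (R.bk i) = R.bk i := fun i => by
    rw [R.bk_eq_combk, hσ]
    refine congrArg _ (funext fun j => ?_)
    show ((Pi.single i 1 : Fin (X.c + 1) → k[X]) j).map φ = _
    rcases eq_or_ne j i with rfl | h <;> simp [*]
  have hwt : ∀ q, Fr.wt (mapφ q) = Fr.wt q := fun q =>
    Frame.wt_map_injective (Fr := Fr) φ.injective q
  -- periodicity
  let Per : G → Prop := fun x => ∃ r, 0 < r ∧ σ^[r] x = x
  have hop : ∀ {x y : G}, Per x → Per y → Per (x + y) ∧ Per (x * y) ∧ Per x⁻¹ := by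
    rintro x y ⟨r, hr, hx⟩ ⟨s, hs, hy⟩
    have hx' : σ^[r * s] x = x := Function.IsPeriodicPt.mul_const (show Function.IsPeriodicPt σ r x from hx) s
    have hy' : σ^[r * s] y = y := Function.IsPeriodicPt.const_mul (show Function.IsPeriodicPt σ s y from hy) r
    exact ⟨⟨r * s, Nat.mul_pos hr hs, by rw [iterate_map_add, hx', hy']⟩,
      ⟨r * s, Nat.mul_pos hr hs, by rw [iterate_map_mul, hx', hy']⟩,
      ⟨r, hr, by
        have : ∀ r, σ^[r] x⁻¹ = (σ^[r] x)⁻¹ := fun r => by
          induction r with
          | zero => simp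
          | succ r ih => rw [Function.iterate_succ_apply', Function.iterate_succ_apply', ih, map_inv₀]
        rw [this, hx]⟩⟩
  have hperB : ∀ y ∈ R.ringk, Per y := fun y hy => by
    induction hy using Algebra.adjoin_induction with
    | mem x hx =>
      rcases hx with rfl | ⟨i, rfl⟩
      · exact ⟨1, one_pos, hσf⟩
      · exact ⟨1, one_pos, hσb i⟩
    | algebraMap c =>
      obtain ⟨r, hr, hc⟩ := hper c
      have : ∀ r, σ^[r] (algebraMap k G c) = algebraMap k G (c ^ (p ^ e) ^ r) := fun r => by
        induction r with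
        | zero => simp
        | succ r ih => rw [Function.iterate_succ_apply', ih, hσc, ← pow_mul, ← pow_succ]
      exact ⟨r, hr, by rw [this, hc]⟩
    | add x y _ _ hx hy => exact (hop hx hy).1
    | mul x y _ _ hx hy => exact (hop hx hy).2.1
  refine ⟨⟨p, hp.out, inferInstance, ⟨e, he, rfl⟩, RingEquiv.ofBijective σ ⟨σ.injective, hσs⟩, hσc,
    hYf ▸ hσf, fun x => ?_, fun x => ?_⟩⟩
  · obtain ⟨q, q', hq', hx⟩ := R.exists_frac x
    show σ x ∈ _ ↔ _
    rcases eq_or_ne q 0 with rfl | hq
    · rw [map_zero] at hx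
      rw [(mul_eq_zero.mp hx).resolve_right fun h => hq' (hinj (h.trans (map_zero _).symm)), map_zero]
    have hne : ∀ {q}, q ≠ 0 → R.combk q ≠ 0 := fun hq h => hq (hinj (h.trans (map_zero _).symm))
    have hx0 : x ≠ 0 := fun h => hne hq (by rw [← hx, h, zero_mul])
    have hσx : σ x ≠ 0 := (map_ne_zero σ).mpr hx0
    rw [mem_iff_ord_nonneg _ hσx, mem_iff_ord_nonneg _ hx0]
    have h1 := congrArg Y.inf.ord hx
    have h2 := congrArg (fun z => Y.inf.ord (σ z)) hx
    simp only [map_mul, hσ] at h2
    rw [Y.inf.ord_mul hσx (hne fun h => hq' (hmz _ h)), hYinf _ (fun h => hq' (hmz _ h)),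
      hYinf _ (fun h => hq (hmz _ h)), hwt, hwt] at h2
    rw [Y.inf.ord_mul hx0 (hne hq'), hYinf _ hq', hYinf _ hq] at h1
    omega
  · obtain ⟨a, b, hb, hx⟩ := R.frac x
    obtain ⟨r, hr, h⟩ := (hop (hperB _ (R.red_mem a))
      ((hop (hperB _ (R.red_mem b)) (hperB _ (R.red_mem b))).2.2)).2.1
    refine ⟨r, hr, ?_⟩
    rw [hx, div_eq_mul_inv]
    exact h

end Fermat.Agent.MCurve.T27
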