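/-
Points of finitely generated rings of constants over algebraically closed fields of positive
characteristic, fixed by a power of the Frobenius.
-/
import Mathlib.RingTheory.Jacobson.Ring
import Mathlib.GroupTheory.FiniteAbelian.Basic
import Mathlib.FieldTheory.IsAlgClosed.AlgebraicClosure
import Mathlib.FieldTheory.Finite.Basic
import Mathlib.Algebra.Ring.Int.Field
import Mathlib.RingTheory.IntegralClosure.IsIntegralClosure.Basic
import Mathlib.RingTheory.FiniteType
import Mathlib.Algebra.Algebra.ZMod

set_option autoImplicit false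
set_option linter.unusedSectionVars false

noncomputable section

namespace Fermat.Agent.MCurve.T27

theorem isJacobsonRing_int : IsJacobsonRing ℤ := by
  refine isJacobsonRing_iff_prime_eq.mpr fun P hP => ?_
  rcases eq_or_ne P ⊥ with rfl | hne
  · refine eq_bot_iff.mpr fun x hx => ?_
    have := Ideal.mem_jacobson_bot.mp hx 3
    rw [Int.isUnit_iff] at this
    rw [Ideal.mem_bot]
    omega
  · haveI := IsPrime.to_maximal_ideal hne
    exact Ideal.jacobson_eq_self_of_isMaximal

/-- A field of finite type over the integers is finite. -/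
theorem finite_of_finiteType_int (L : Type*) [Field L] [Algebra.FiniteType ℤ L] : Finite L := by
  haveI := isJacobsonRing_int
  haveI : Module.Finite ℤ L := finite_of_finite_type_of_isJacobsonRing ℤ L
  obtain ⟨p, hp⟩ := CharP.exists L
  rcases eq_or_ne p 0 with rfl | hp0
  · haveI := CharP.charP_to_charZero L
    exact absurd (isField_of_isIntegral_of_isField (algebraMap ℤ L).injective_int
      (Field.toIsField L)) Int.not_isField
  · exact Module.finite_of_fg_torsion L fun x =>
      ⟨⟨(p : ℤ), mem_nonZeroDivisors_of_ne_zero (Int.natCast_ne_zero.mpr hp0)⟩, by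
        show (p : ℤ) • x = 0
        rw [zsmul_eq_mul, Int.cast_natCast, CharP.cast_eq_zero, zero_mul]⟩

/-- Every element of the algebraic closure of a prime field is fixed by a power of the
Frobenius. -/
theorem exists_pow_pow_eq_self (p : ℕ) [Fact p.Prime] (a : AlgebraicClosure (ZMod p)) :
    ∃ r, 0 < r ∧ a ^ p ^ r = a := by
  set E := IntermediateField.adjoin (ZMod p) {a}
  haveI : FiniteDimensional (ZMod p) E :=
    IntermediateField.adjoin.finiteDimensional (Algebra.IsIntegral.isIntegral a)
  haveI : Finite E := Module.finite_of_finite (ZMod p)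
  letI := Fintype.ofFinite E
  haveI : CharP E p := charP_of_injective_algebraMap (algebraMap (ZMod p) E).injective p
  obtain ⟨r, -, hr⟩ := FiniteField.card E p
  refine ⟨r, r.pos, ?_⟩
  have h := congrArg Subtype.val
    (FiniteField.pow_card (⟨a, IntermediateField.mem_adjoin_simple_self _ a⟩ : E))
  rw [hr] at h
  simpa using h

/-- A finite set lies in a ring with a point fixed by a power of the Frobenius. -/
theorem exists_frobenius_point {K : Type*} [Field K] (s : Finset K) :
    ∃ (p : ℕ) (_ : Fact p.Prime) (e : ℕ) (R : Subring K) (φ : R →+* AlgebraicClosure (ZMod p)),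
      0 < e ∧ (↑s : Set K) ⊆ R ∧ ∀ x, φ x ^ p ^ e = φ x := by
  let π : MvPolynomial (↥s) ℤ →+* K := MvPolynomial.eval₂Hom (Int.castRingHom K) fun x => x.1
  obtain ⟨m, hm, hle⟩ := Ideal.exists_le_maximal _ (RingHom.ker_ne_top π)
  have hft : Algebra.FiniteType ℤ (MvPolynomial (↥s) ℤ ⧸ m) := inferInstance
  letI := Ideal.Quotient.field m
  haveI := @finite_of_finiteType_int (MvPolynomial (↥s) ℤ ⧸ m) _ (by
    convert hft using 2 <;> first | rfl | exact Algebra.algebra_ext _ _ fun r => by simp)
  letI := Fintype.ofFinite (MvPolynomial (↥s) ℤ ⧸ m)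
  obtain ⟨p, hpL, e, hp, hcard⟩ := FiniteField.card' (MvPolynomial (↥s) ℤ ⧸ m)
  haveI : Fact p.Prime := ⟨hp⟩
  letI : Algebra (ZMod p) (MvPolynomial (↥s) ℤ ⧸ m) := ZMod.algebra _ p
  haveI : Module.Finite (ZMod p) (MvPolynomial (↥s) ℤ ⧸ m) := Module.Finite.of_finite
  let ι : (MvPolynomial (↥s) ℤ ⧸ m) →ₐ[ZMod p] AlgebraicClosure (ZMod p) := IsAlgClosed.lift
  refine ⟨p, inferInstance, e, π.range, ι.toRingHom.comp
    (π.rangeRestrict.liftOfSurjective π.rangeRestrict_surjective ⟨Ideal.Quotient.mk m, ?_⟩),
    e.pos, fun x hx => ⟨MvPolynomial.X ⟨x, hx⟩, by simp [π]⟩, fun x => ?_⟩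
  · rw [Ideal.mk_ker]
    exact fun x hx => hle (congrArg Subtype.val (RingHom.mem_ker.mp hx))
  · show ι _ ^ _ = ι _
    rw [← map_pow, ← hcard, FiniteField.pow_card]

end Fermat.Agent.MCurve.T27
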